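import Fermat.Agent.LT.A2.H83.TorusSpec
import Fermat.Agent.LT.A2.H743.BaseChange

/-!
# Row LT, tower A2, leaf A2.02 `TorusCharC`: `BaseChangeC83`, `LocalMapC83`, `IntUpC83` VERBATIM
(helper456, on the base change of helper743 `LT/A2/H743/BaseChange.lean`), OFF-MAIN
-/

set_option autoImplicit false

open IsDedekindDomain NumberField AutomorphicForm

noncomputable section

namespace Fermat.Agent.LT.A2.H456

open Fermat.Agent.LT.H130 Fermat.Agent.LT.H556 Fermat.Agent.LT.A2 Fermat.Agent.LT.A2.H83

variable {K L : Type} [Field K] [NumberField K] [Field L] [NumberField L] [Algebra K L]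

theorem finUnder_eq456 {w : HeightOneSpectrum (𝓞 L)} {v : HeightOneSpectrum (𝓞 K)}
    (h : LiesOverPl K w v) : H743.finUnder743 K L w = v :=
  HeightOneSpectrum.ext h

theorem localMapC456 : LocalMapC83 := by
  intro K L _ _ _ _ _ v w ho
  have hv := finUnder_eq456 ho
  subst hv
  refine ⟨H743.finLoc743 K L w, H743.continuous_finLoc743 K L w, ?_, ?_⟩
  · intro x
    exact H743.finLoc_coe743 K L w x
  · intro y hy
    rw [H743.valued_finLoc743]
    exact pow_le_one' hy _

theorem baseChangeC456 : BaseChangeC83 := by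
  intro K L _ _ _ _ _
  refine ⟨H743.finBC743 K L, H743.continuous_finBC743 K L, ?_⟩
  intro a v w x ho hax
  have hv := finUnder_eq456 ho
  subst hv
  rw [H743.finBC_apply743, hax]
  exact H743.finLoc_coe743 K L w x

theorem intUpC456 : IntUpC83 := by
  intro K L _ _ _ _ _ v w ho x hx
  have hv := finUnder_eq456 ho
  subst hv
  unfold IntAt83 at hx ⊢
  have h1 := H743.valued_finLoc743 K L w
    (algebraMap K ((H743.finUnder743 K L w).adicCompletion K) x)
  have h2 : H743.finLoc743 K L w (algebraMap K ((H743.finUnder743 K L w).adicCompletion K) x)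
      = algebraMap L (w.adicCompletion L) (algebraMap K L x) := H743.finLoc_coe743 K L w x
  rw [h2] at h1
  rw [h1]
  exact pow_le_one' hx _

end Fermat.Agent.LT.A2.H456

end
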