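import Fermat.Agent.LT.A2.H456.TorusTop
import Fermat.Agent.LT.A2.H456.BC
import Fermat.Agent.LT.A2.H83.Gen
import Fermat.Agent.LT.A2.H83.InfTriv
import Fermat.Agent.LT.A2.H83.UnramFinite
import Fermat.Agent.LT.A2.H83.NormOneElt
import Fermat.Agent.LT.A2.H83.SplitElt
import Fermat.Agent.LT.A2.H772.Inert

/-!
# Row LT, tower A2, leaf A2.02 `TorusCharC` -- CLOSED (helper456, owner; registry row 796), OFF-MAIN

`torusCharC_closed456 : A2.TorusCharC`, UNCONDITIONAL, in ONE import closure:

* top `torusCharC_of83` (helper456, `LT/A2/H456/`), cut of helper83 (`LT/A2/H83/TorusSpec.lean`);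
* `GenC83`, `InfTrivC83`, `UnramFiniteC83`, `NormOneEltC83`, `SplitEltC83`: helper83;
* `InertC83`: helper772 (`LT/A2/H772/`);
* `BaseChangeC83`, `IntUpC83` (and `LocalMapC83`): helper456 on the adelic base change of
  helper743 (`LT/A2/H743/BaseChange.lean`).
-/

set_option autoImplicit false

namespace Fermat.Agent.LT.A2.H456

/-- **A2.02 `TorusCharC`**, unconditional. -/
theorem torusCharC_closed456 : Fermat.Agent.LT.A2.TorusCharC :=
  torusCharC_of83 Fermat.Agent.LT.A2.H83.genC_h83 baseChangeC456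
    Fermat.Agent.LT.A2.H83.infTrivC_h83 Fermat.Agent.LT.A2.H83.unramFiniteC_h83 intUpC456
    Fermat.Agent.LT.A2.H83.normOneEltC_h83 Fermat.Agent.LT.A2.H83.splitEltC_h83
    Fermat.Agent.LT.A2.H772.inertC772

end Fermat.Agent.LT.A2.H456
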