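import Fermat.Agent.LT.A2.H456.Rat

/-!
# Row LT, tower A2, leaf A2.02 `TorusCharC` -- top assembly, part 8 (helper456), OFF-MAIN

`χT` is not trivial on `T¹(𝔸_K)`; the dictionary `InducedAtT → InducedAt` at the good places.
-/

set_option autoImplicit false

open IsDedekindDomain NumberField AutomorphicForm
open scoped MatrixGroups

noncomputable section

namespace Fermat.Agent.LT.A2.H456

open Fermat.Agent.LT.H130 Fermat.Agent.LT.H556 Fermat.Agent.LT.A2 Fermat.Agent.LT.A2.H83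

variable {K L : Type} [Field K] [NumberField K] [Field L] [NumberField L] [Algebra K L]
variable {t n : K} {ω : L} {ι : FiniteAdeleRing (𝓞 K) K →+* FiniteAdeleRing (𝓞 L) L}
  {χ : (A0.Adl L)ˣ →* ℂˣ}

/-- The value of `χT` on a torus element supported at `v` with rational component, when exactly
two places `w₁ ≠ w₂` lie over `v` and `χ` is unramified there. -/
theorem chiT_locT_two456 (hrel : ω ^ 2 - algebraMap K L t * ω + algebraMap K L n = 0)
    (hι : IsBC456 ι) {v : HeightOneSpectrum (𝓞 K)} {w₁ w₂ : HeightOneSpectrum (𝓞 L)}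
    (hne : w₁ ≠ w₂) (ho1 : LiesOverPl K w₁ v) (ho2 : LiesOverPl K w₂ v)
    (honly : ∀ w' : HeightOneSpectrum (𝓞 L), LiesOverPl K w' v → w' = w₁ ∨ w' = w₂)
    (hu1 : UnramAt χ w₁) (hu2 : UnramAt χ w₂) (x y : K) (h : nf456 t n x y ≠ 0)
    {z₁ z₂ : (A0.Adl L)ˣ} (hz1 : IsIdeleAt w₁ z₁) (hz2 : IsIdeleAt w₂ z₂)
    (hv1 : val83 w₁ (elt83 ω x y) = Valued.v ((z₁ : A0.Adl L).2 w₁))
    (hv2 : val83 w₂ (elt83 ω x y) = Valued.v ((z₂ : A0.Adl L).2 w₂)) :
    chiT456 ω ι χ (locT456 t n v x y h) = ((χ z₁ * χ z₂ : ℂˣ) : ℂ) := by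
  rw [chiT456_eq hrel hι _ (locT456_inTorus t n v x y h)]
  congr 1
  apply chi_two456 hne hu1 hu2 _ _ _ hz1 hz2
  · rw [unitT456_val, thetaG_locT456_over hι v x y h ho1]
    exact hv1
  · rw [unitT456_val, thetaG_locT456_over hι v x y h ho2]
    exact hv2
  · intro u
    rw [unitT456_val, thetaG_locT456_fst]
    rfl
  · intro w hw1 hw2
    rw [unitT456_val]
    apply thetaG_locT456_not_over hι
    intro ho
    rcases honly w ho with h' | h'
    · exact hw1 h'
    · exact hw2 h'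

/-- The same with one place over `v`. -/
theorem chiT_locT_one456 (hrel : ω ^ 2 - algebraMap K L t * ω + algebraMap K L n = 0)
    (hι : IsBC456 ι) {v : HeightOneSpectrum (𝓞 K)} {w : HeightOneSpectrum (𝓞 L)}
    (ho : LiesOverPl K w v)
    (honly : ∀ w' : HeightOneSpectrum (𝓞 L), LiesOverPl K w' v → w' = w)
    (hu : UnramAt χ w) (x y : K) (h : nf456 t n x y ≠ 0)
    {z : (A0.Adl L)ˣ} (hz : IsIdeleAt w z)
    (hv : val83 w (elt83 ω x y) = Valued.v ((z : A0.Adl L).2 w)) :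
    chiT456 ω ι χ (locT456 t n v x y h) = ((χ z : ℂˣ) : ℂ) := by
  rw [chiT456_eq hrel hι _ (locT456_inTorus t n v x y h)]
  congr 1
  apply chi_one456 hu _ _ _ hz
  · rw [unitT456_val, thetaG_locT456_over hι v x y h ho]
    exact hv
  · intro u
    rw [unitT456_val, thetaG_locT456_fst]
    rfl
  · intro w' hw'
    rw [unitT456_val]
    apply thetaG_locT456_not_over hι
    intro ho'
    exact hw' (honly w' ho')

/-! ## `nontriv` -/

theorem chiT456_nontriv (hfr : Module.finrank K L = 2) (hg : IsGen83 K L t n ω)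
    (hι : IsBC456 ι) (hN : NormOneEltC83) (hng : NotGaloisInvariant K χ) :
    ∃ m : A0.G K, InTorus1 t n m ∧ chiT456 ω ι χ m ≠ 1 := by
  obtain ⟨v, w₁, w₂, z₁, z₂, hne, ho1, ho2, hu1, hu2, hz1, hz2, hχne⟩ := hng
  obtain ⟨honly, a, b, hnorm, hv1, hv2⟩ := hN K L t n ω hfr hg v w₁ w₂ hne ho1 ho2
  have hnf1 : nf456 t n a b = 1 := hnorm
  have hnf : nf456 t n a b ≠ 0 := by rw [hnf1]; exact one_ne_zero
  refine ⟨locT456 t n v a b hnf, ⟨locT456_inTorus t n v a b hnf, ?_⟩, ?_⟩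
  · apply Units.ext
    rw [locT456_det, hnf1, locA456_one, Units.val_one]
  · have hval2 : val83 w₂ (elt83 ω a b)
        = Valued.v (((z₂⁻¹ : (A0.Adl L)ˣ) : A0.Adl L).2 w₂) := by
      rw [val_inv_idele456, hz2.2, hv2, ← WithZero.exp_neg]
      rfl
    rw [chiT_locT_two456 hg.rel hι hne ho1 ho2 honly hu1 hu2 a b hnf hz1.1
      (isIdeleAt_inv456 hz2.1) (hv1.trans hz1.2.symm) hval2]
    intro h1
    apply hχne
    have h2 : (χ z₁ * χ z₂⁻¹ : ℂˣ) = 1 := Units.ext h1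
    rw [map_inv, mul_inv_eq_one] at h2
    exact h2

end Fermat.Agent.LT.A2.H456

end
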