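import Fermat.Agent.LT.A2.H456.Dict

/-!
# Row LT, tower A2, leaf A2.02 `TorusCharC` -- top assembly, part 9 (helper456), OFF-MAIN

The dictionary `InducedAtT → InducedAt` at the good places.
-/

set_option autoImplicit false

open IsDedekindDomain NumberField AutomorphicForm
open scoped MatrixGroups

noncomputable section

namespace Fermat.Agent.LT.A2.H456

open Fermat.Agent.LT.H130 Fermat.Agent.LT.H556 Fermat.Agent.LT.A2 Fermat.Agent.LT.A2.H83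

section Val

variable {K : Type} [Field K] [NumberField K]

theorem val83_eq456 (v : HeightOneSpectrum (𝓞 K)) (x : K) :
    val83 v x = v.valuation K x :=
  HeightOneSpectrum.valuedAdicCompletion_eq_valuation' v x

theorem val83_mul456 (v : HeightOneSpectrum (𝓞 K)) (x y : K) :
    val83 v (x * y) = val83 v x * val83 v y := by
  unfold val83
  rw [map_mul, map_mul]

theorem val83_zero456 (v : HeightOneSpectrum (𝓞 K)) : val83 v (0 : K) = 0 := by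
  unfold val83
  rw [map_zero, map_zero]

theorem val83_one456 (v : HeightOneSpectrum (𝓞 K)) : val83 v (1 : K) = 1 := by
  unfold val83
  rw [map_one, map_one]

theorem intAt_of_isIntegral456 (v : HeightOneSpectrum (𝓞 K)) {x : K} (hx : IsIntegral ℤ x) :
    IntAt83 v x := by
  show val83 v x ≤ 1
  rw [val83_eq456]
  exact HeightOneSpectrum.valuation_le_one v (⟨x, hx⟩ : 𝓞 K)

theorem intAt_add456 (v : HeightOneSpectrum (𝓞 K)) {x y : K} (hx : IntAt83 v x)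
    (hy : IntAt83 v y) : IntAt83 v (x + y) := by
  unfold IntAt83 at *
  rw [map_add]
  exact (Valued.v.map_add _ _).trans (max_le hx hy)

theorem intAt_mul456 (v : HeightOneSpectrum (𝓞 K)) {x y : K} (hx : IntAt83 v x)
    (hy : IntAt83 v y) : IntAt83 v (x * y) := by
  unfold IntAt83 at *
  rw [map_mul, map_mul]
  exact mul_le_one' hx hy

end Val

variable {K L : Type} [Field K] [NumberField K] [Field L] [NumberField L] [Algebra K L]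
variable {t n : K} {ω : L} {ι : FiniteAdeleRing (𝓞 K) K →+* FiniteAdeleRing (𝓞 L) L}
  {χ : (A0.Adl L)ˣ →* ℂˣ}

/-- The quotient `(x₂ + y₂ ω) / (x₁ + y₁ ω)` in coordinates. -/
def quo1_456 (t n x₁ y₁ x₂ y₂ : K) : K :=
  tm1_456 n ((x₁ + t * y₁) / nf456 t n x₁ y₁) (-y₁ / nf456 t n x₁ y₁) x₂ y₂

/-- The quotient `(x₂ + y₂ ω) / (x₁ + y₁ ω)` in coordinates. -/
def quo2_456 (t n x₁ y₁ x₂ y₂ : K) : K :=
  tm2_456 t ((x₁ + t * y₁) / nf456 t n x₁ y₁) (-y₁ / nf456 t n x₁ y₁) x₂ y₂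

theorem tm1_quo456 (t n x₁ y₁ x₂ y₂ : K) (h : nf456 t n x₁ y₁ ≠ 0) :
    tm1_456 n x₁ y₁ (quo1_456 t n x₁ y₁ x₂ y₂) (quo2_456 t n x₁ y₁ x₂ y₂) = x₂ := by
  unfold quo1_456 quo2_456 tm1_456 tm2_456
  have hN : nf456 t n x₁ y₁ = x₁ ^ 2 + t * x₁ * y₁ + n * y₁ ^ 2 := rfl
  generalize nf456 t n x₁ y₁ = N at h hN
  field_simp
  linear_combination (-x₂) * hN

theorem tm2_quo456 (t n x₁ y₁ x₂ y₂ : K) (h : nf456 t n x₁ y₁ ≠ 0) :
    tm2_456 t x₁ y₁ (quo1_456 t n x₁ y₁ x₂ y₂) (quo2_456 t n x₁ y₁ x₂ y₂) = y₂ := by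
  unfold quo1_456 quo2_456 tm1_456 tm2_456
  have hN : nf456 t n x₁ y₁ = x₁ ^ 2 + t * x₁ * y₁ + n * y₁ ^ 2 := rfl
  generalize nf456 t n x₁ y₁ = N at h hN
  field_simp
  linear_combination (-y₂) * hN

theorem nf_quo456 (t n x₁ y₁ x₂ y₂ : K) (h : nf456 t n x₁ y₁ ≠ 0) (h' : nf456 t n x₂ y₂ ≠ 0) :
    nf456 t n (quo1_456 t n x₁ y₁ x₂ y₂) (quo2_456 t n x₁ y₁ x₂ y₂) ≠ 0 := by
  intro h0
  have h1 := nf456_mul t n x₁ y₁ (quo1_456 t n x₁ y₁ x₂ y₂) (quo2_456 t n x₁ y₁ x₂ y₂)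
  rw [tm1_quo456 t n x₁ y₁ x₂ y₂ h, tm2_quo456 t n x₁ y₁ x₂ y₂ h, h0, mul_zero] at h1
  exact h' h1

theorem locT_inv_mul456 (v : HeightOneSpectrum (𝓞 K)) (x₁ y₁ x₂ y₂ : K)
    (h : nf456 t n x₁ y₁ ≠ 0) (h' : nf456 t n x₂ y₂ ≠ 0) :
    (locT456 t n v x₁ y₁ h)⁻¹ * locT456 t n v x₂ y₂ h'
      = locT456 t n v (quo1_456 t n x₁ y₁ x₂ y₂) (quo2_456 t n x₁ y₁ x₂ y₂)
          (nf_quo456 t n x₁ y₁ x₂ y₂ h h') := by
  rw [inv_mul_eq_iff_eq_mul]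
  have h'' : nf456 t n (tm1_456 n x₁ y₁ (quo1_456 t n x₁ y₁ x₂ y₂) (quo2_456 t n x₁ y₁ x₂ y₂))
      (tm2_456 t x₁ y₁ (quo1_456 t n x₁ y₁ x₂ y₂) (quo2_456 t n x₁ y₁ x₂ y₂)) ≠ 0 := by
    rw [tm1_quo456 t n x₁ y₁ x₂ y₂ h, tm2_quo456 t n x₁ y₁ x₂ y₂ h]
    exact h'
  rw [locT456_mul t n v _ _ _ _ h (nf_quo456 t n x₁ y₁ x₂ y₂ h h') h'']
  apply Units.ext
  rw [locT456_val, locT456_val, tm1_quo456 t n x₁ y₁ x₂ y₂ h, tm2_quo456 t n x₁ y₁ x₂ y₂ h]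

theorem elt_quo456 (hrel : ω ^ 2 - algebraMap K L t * ω + algebraMap K L n = 0)
    (x₁ y₁ x₂ y₂ : K) (h : nf456 t n x₁ y₁ ≠ 0) :
    elt83 ω x₁ y₁ * elt83 ω (quo1_456 t n x₁ y₁ x₂ y₂) (quo2_456 t n x₁ y₁ x₂ y₂)
      = elt83 ω x₂ y₂ := by
  rw [← elt83_mul456 hrel, tm1_quo456 t n x₁ y₁ x₂ y₂ h, tm2_quo456 t n x₁ y₁ x₂ y₂ h]

end Fermat.Agent.LT.A2.H456

end
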