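import Fermat.Agent.LT.A2.H456.Dict2

/-!
# Row LT, tower A2, leaf A2.02 `TorusCharC` -- top assembly, part 10 (helper456), OFF-MAIN

The dictionary `InducedAtT → InducedAt` at the good places.
-/

set_option autoImplicit false

open IsDedekindDomain NumberField AutomorphicForm
open scoped MatrixGroups

noncomputable section

namespace Fermat.Agent.LT.A2.H456

open Fermat.Agent.LT.H130 Fermat.Agent.LT.H556 Fermat.Agent.LT.A2 Fermat.Agent.LT.A2.H83

variable {K L : Type} [Field K] [NumberField K] [Field L] [NumberField L] [Algebra K L]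
variable {t n : K} {ω : L} {ι : FiniteAdeleRing (𝓞 K) K →+* FiniteAdeleRing (𝓞 L) L}
  {χ : (A0.Adl L)ˣ →* ℂˣ}

theorem exp_neg_one_lt_one456 : (WithZero.exp (-1 : ℤ) : WithZero (Multiplicative ℤ)) < 1 := by
  rw [← WithZero.exp_zero, WithZero.exp_lt_exp]
  norm_num

theorem exp_neg_one_ne_zero456 : (WithZero.exp (-1 : ℤ) : WithZero (Multiplicative ℤ)) ≠ 0 :=
  WithZero.exp_ne_zero

theorem finComp_torus456 (v : HeightOneSpectrum (𝓞 K)) {m : A0.G K} {A B : A0.Adl K}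
    (hAB : (m : Matrix (Fin 2) (Fin 2) (A0.Adl K))
      = torMat (algebraMap K (A0.Adl K) t) (algebraMap K (A0.Adl K) n) A B) :
    A0.finComp v m = torMat (algebraMap K (v.adicCompletion K) t)
      (algebraMap K (v.adicCompletion K) n) (A.2 v) (B.2 v) := by
  refine Matrix.ext fun i j => ?_
  rw [finComp_apply456, hAB]
  fin_cases i <;> fin_cases j
  · show (torMat _ _ A B 0 0).2 v = torMat _ _ (A.2 v) (B.2 v) 0 0
    rw [torMat_apply00_456, torMat_apply00_456]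
  · show (torMat _ _ A B 0 1).2 v = torMat _ _ (A.2 v) (B.2 v) 0 1
    rw [torMat_apply01_456, torMat_apply01_456, adl_snd_neg456, adl_snd_mul456, fin_neg_apply456,
      fin_mul_apply456, algebraMap_adl_snd456, fin_algebraMap_apply456]
  · show (torMat _ _ A B 1 0).2 v = torMat _ _ (A.2 v) (B.2 v) 1 0
    rw [torMat_apply10_456, torMat_apply10_456]
  · show (torMat _ _ A B 1 1).2 v = torMat _ _ (A.2 v) (B.2 v) 1 1
    rw [torMat_apply11_456, torMat_apply11_456, adl_snd_add456, adl_snd_mul456, fin_add_apply456,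
      fin_mul_apply456, algebraMap_adl_snd456, fin_algebraMap_apply456]

theorem nf_ne_zero_of_val456 {v : HeightOneSpectrum (𝓞 K)} {x y : K}
    (h : val83 v (x ^ 2 + t * x * y + n * y ^ 2) = WithZero.exp (-1 : ℤ)) :
    nf456 t n x y ≠ 0 := by
  intro h0
  unfold nf456 at h0
  rw [h0, val83_zero456] at h
  exact exp_neg_one_ne_zero456 h.symm

/-- The split clause of the dictionary. -/
theorem induced_split456 (hfr : Module.finrank K L = 2) (hg : IsGen83 K L t n ω)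
    (hι : IsBC456 ι) (hN : NormOneEltC83) (hS : SplitEltC83) (hUp : IntUpC83)
    (v : HeightOneSpectrum (𝓞 K)) (hD : val83 v (t ^ 2 - 4 * n) = 1)
    (hur : ∀ w : HeightOneSpectrum (𝓞 L), LiesOverPl K w v → UnramAt χ w) (a b : ℂ)
    (h : InducedAtT t n (chiT456 ω ι χ) v a b)
    (w₁ w₂ : HeightOneSpectrum (𝓞 L)) (hne : w₁ ≠ w₂) (ho1 : LiesOverPl K w₁ v)
    (ho2 : LiesOverPl K w₂ v) (z₁ z₂ : (A0.Adl L)ˣ) (hz1 : IsUnifIdeleAt w₁ z₁)
    (hz2 : IsUnifIdeleAt w₂ z₂) :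
    a = (χ z₁ : ℂ) + (χ z₂ : ℂ) ∧ b = (χ z₁ : ℂ) * (χ z₂ : ℂ) := by
  obtain ⟨honly, -⟩ := hN K L t n ω hfr hg v w₁ w₂ hne ho1 ho2
  obtain ⟨a₁, b₁, ha₁, hb₁, hNv₁, hv11, hv12⟩ := hS K L t n ω hfr hg v w₁ w₂ hne ho1 ho2 hD
  obtain ⟨a₂, b₂, ha₂, hb₂, hNv₂, hv22, hv21⟩ :=
    hS K L t n ω hfr hg v w₂ w₁ hne.symm ho2 ho1 hD
  have hnf1 : nf456 t n a₁ b₁ ≠ 0 := nf_ne_zero_of_val456 hNv₁
  have hnf2 : nf456 t n a₂ b₂ ≠ 0 := nf_ne_zero_of_val456 hNv₂
  have ht := intAt_of_isIntegral456 v hg.int_t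
  have hn := intAt_of_isIntegral456 v hg.int_n
  have hnotint : ¬ A0.IsIntegralAt v
      ((locT456 t n v a₁ b₁ hnf1)⁻¹ * locT456 t n v a₂ b₂ hnf2) := by
    intro hint
    rw [locT_inv_mul456] at hint
    obtain ⟨hc, hd⟩ := intAt_of_locT456_isIntegralAt t n v _ hint
    have hc' := hUp K L v w₁ ho1 _ hc
    have hd' := hUp K L v w₁ ho1 _ hd
    have hω := intAt_of_isIntegral456 w₁ hg.int_ω
    have hle : val83 w₁ (elt83 ω (quo1_456 t n a₁ b₁ a₂ b₂) (quo2_456 t n a₁ b₁ a₂ b₂)) ≤ 1 :=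
      intAt_add456 w₁ hc' (intAt_mul456 w₁ hd' hω)
    have hmul := congrArg (val83 w₁) (elt_quo456 hg.rel a₁ b₁ a₂ b₂ hnf1)
    rw [val83_mul456, hv11, hv21] at hmul
    have h1 : WithZero.exp (-1 : ℤ) * val83 w₁ (elt83 ω (quo1_456 t n a₁ b₁ a₂ b₂) (quo2_456 t n a₁ b₁ a₂ b₂)) ≤ WithZero.exp (-1 : ℤ) * 1 := mul_le_mul_right hle (WithZero.exp (-1 : ℤ))
    rw [hmul, mul_one] at h1
    exact absurd h1 (not_le.mpr exp_neg_one_lt_one456)
  have key := h.1 (locT456 t n v a₁ b₁ hnf1) (locT456 t n v a₂ b₂ hnf2)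
    (locT456_inTorus t n v a₁ b₁ hnf1) (locT456_inTorus t n v a₂ b₂ hnf2)
    (locT456_isLocalAtFin t n v a₁ b₁ hnf1) (locT456_isLocalAtFin t n v a₂ b₂ hnf2)
    (locT456_isIntegralAt t n v hnf1 ht hn ha₁ hb₁)
    (locT456_isIntegralAt t n v hnf2 ht hn ha₂ hb₂)
    (by rw [locT456_val_det]; exact hNv₁) (by rw [locT456_val_det]; exact hNv₂) hnotint
  have hone1 : Valued.v (((1 : (A0.Adl L)ˣ) : A0.Adl L).2 w₁) = 1 := by
    rw [Units.val_one, adl_snd_one456, fin_one_apply456, map_one]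
  have hone2 : Valued.v (((1 : (A0.Adl L)ˣ) : A0.Adl L).2 w₂) = 1 := by
    rw [Units.val_one, adl_snd_one456, fin_one_apply456, map_one]
  have e1 := chiT_locT_two456 (χ := χ) hg.rel hι hne ho1 ho2 honly (hur w₁ ho1) (hur w₂ ho2)
    a₁ b₁ hnf1 hz1.1 (isIdeleAt_one456 w₂) (hv11.trans hz1.2.symm) (hv12.trans hone2.symm)
  have e2 := chiT_locT_two456 (χ := χ) hg.rel hι hne ho1 ho2 honly (hur w₁ ho1) (hur w₂ ho2)
    a₂ b₂ hnf2 (isIdeleAt_one456 w₁) hz2.1 (hv21.trans hone1.symm) (hv22.trans hz2.2.symm)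
  rw [map_one, mul_one] at e1
  rw [map_one, one_mul] at e2
  rw [e1, e2] at key
  exact key

/-- The inert clause of the dictionary. -/
theorem induced_inert456 (hfr : Module.finrank K L = 2) (hg : IsGen83 K L t n ω)
    (hι : IsBC456 ι) (hI : InertC83)
    (v : HeightOneSpectrum (𝓞 K)) (hD : val83 v (t ^ 2 - 4 * n) = 1)
    (hur : ∀ w : HeightOneSpectrum (𝓞 L), LiesOverPl K w v → UnramAt χ w) (a b : ℂ)
    (h : InducedAtT t n (chiT456 ω ι χ) v a b)
    (w : HeightOneSpectrum (𝓞 L)) (ho : LiesOverPl K w v)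
    (honly : ∀ w' : HeightOneSpectrum (𝓞 L), LiesOverPl K w' v → w' = w)
    (z : (A0.Adl L)ˣ) (hz : IsUnifIdeleAt w z) :
    a = 0 ∧ b = -(χ z : ℂ) := by
  obtain ⟨hno, ϖ, hϖv, hϖw⟩ := hI K L t n ω hfr hg v w ho honly hD
  have hϖ0 : ϖ ≠ 0 := by
    intro h0
    rw [h0, val83_zero456] at hϖv
    exact exp_neg_one_ne_zero456 hϖv.symm
  have hnfe : nf456 t n ϖ 0 = ϖ ^ 2 := by unfold nf456; ring
  have hnf : nf456 t n ϖ 0 ≠ 0 := by rw [hnfe]; exact pow_ne_zero 2 hϖ0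
  have hyp : ∀ m : A0.G K, InTorus t n m → A0.IsLocalAtFin v m → A0.IsIntegralAt v m →
      Valued.v (A0.finComp v m).det ≠ WithZero.exp (-1 : ℤ) := by
    intro m hm _ hint
    obtain ⟨A, B, hAB⟩ := hm
    have h0 := hint 0 0
    have h1 := hint 1 0
    rw [finComp_torus456 v hAB, torMat_apply00_456] at h0
    rw [finComp_torus456 v hAB, torMat_apply10_456] at h1
    rw [finComp_torus456 v hAB, torMat_det456]
    exact hno _ _ h0 h1
  have hscal : A0.IsScalarUniformizerAt v (locT456 t n v ϖ 0 hnf) := by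
    refine ⟨locT456_isLocalAtFin t n v ϖ 0 hnf, algebraMap K (v.adicCompletion K) ϖ, hϖv, ?_⟩
    rw [finComp_locT_same456]
    refine Matrix.ext fun i j => ?_
    fin_cases i <;> fin_cases j
    · show torMat _ _ _ _ 0 0 = Matrix.diagonal _ 0 0
      rw [torMat_apply00_456, Matrix.diagonal_apply_eq]
    · show torMat _ _ _ _ 0 1 = Matrix.diagonal _ 0 1
      rw [torMat_apply01_456, Matrix.diagonal_apply_ne _ (by decide : (0 : Fin 2) ≠ 1),
        map_zero, mul_zero, neg_zero]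
    · show torMat _ _ _ _ 1 0 = Matrix.diagonal _ 1 0
      rw [torMat_apply10_456, Matrix.diagonal_apply_ne _ (by decide : (1 : Fin 2) ≠ 0),
        map_zero]
    · show torMat _ _ _ _ 1 1 = Matrix.diagonal _ 1 1
      rw [torMat_apply11_456, Matrix.diagonal_apply_eq, map_zero, mul_zero, add_zero]
  have key := h.2 hyp (locT456 t n v ϖ 0 hnf) hscal
  have helt : elt83 ω ϖ 0 = algebraMap K L ϖ := by
    unfold elt83
    rw [map_zero, zero_mul, add_zero]
  have e := chiT_locT_one456 (χ := χ) hg.rel hι ho honly (hur w ho) ϖ 0 hnf hz.1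
    (by rw [helt]; exact hϖw.trans hz.2.symm)
  rw [e] at key
  exact key

theorem inducedAt_of456 (hfr : Module.finrank K L = 2) (hg : IsGen83 K L t n ω)
    (hι : IsBC456 ι) (hN : NormOneEltC83) (hS : SplitEltC83) (hI : InertC83) (hUp : IntUpC83)
    (v : HeightOneSpectrum (𝓞 K)) (hD : val83 v (t ^ 2 - 4 * n) = 1)
    (hur : ∀ w : HeightOneSpectrum (𝓞 L), LiesOverPl K w v → UnramAt χ w) (a b : ℂ)
    (h : InducedAtT t n (chiT456 ω ι χ) v a b) : InducedAt χ v a b :=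
  ⟨fun w₁ w₂ hne ho1 ho2 z₁ z₂ hz1 hz2 =>
      induced_split456 hfr hg hι hN hS hUp v hD hur a b h w₁ w₂ hne ho1 ho2 z₁ z₂ hz1 hz2,
    fun w ho honly z hz => induced_inert456 hfr hg hι hI v hD hur a b h w ho honly z hz⟩

end Fermat.Agent.LT.A2.H456

end
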