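import Fermat.Agent.LT.A2.H456.Loc3

/-!
# Row LT, tower A2, leaf A2.02 `TorusCharC` -- top assembly, part 6 (helper456), OFF-MAIN

The value of a character on an idele supported at one or two finite places where it is
unramified.
-/

set_option autoImplicit false

open IsDedekindDomain NumberField AutomorphicForm
open scoped MatrixGroups

noncomputable section

namespace Fermat.Agent.LT.A2.H456

open Fermat.Agent.LT.H130 Fermat.Agent.LT.H556 Fermat.Agent.LT.A2 Fermat.Agent.LT.A2.H83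

variable {K : Type} [Field K] [NumberField K]

theorem idele_snd_ne_zero456 (z : (A0.Adl K)ˣ) (v : HeightOneSpectrum (𝓞 K)) :
    (z : A0.Adl K).2 v ≠ 0 := by
  intro h00
  have h := idele_snd_mul_inv456 z v
  rw [h00, zero_mul] at h
  exact zero_ne_one h

theorem isIdeleAt_one456 (v : HeightOneSpectrum (𝓞 K)) : IsIdeleAt v (1 : (A0.Adl K)ˣ) :=
  ⟨fun _ => rfl, fun _ _ => rfl⟩

/-- An idele with trivial infinite components, trivial outside `w₁ ≠ w₂`, is the product of its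
local components. -/
theorem unit_eq_two456 {w₁ w₂ : HeightOneSpectrum (𝓞 K)} (hne : w₁ ≠ w₂) (U : (A0.Adl K)ˣ)
    (h1 : ∀ u, (U : A0.Adl K).1 u = 1)
    (h2 : ∀ w, w ≠ w₁ → w ≠ w₂ → (U : A0.Adl K).2 w = 1) :
    U = idl456 w₁ (Units.mk0 _ (idele_snd_ne_zero456 U w₁))
      * idl456 w₂ (Units.mk0 _ (idele_snd_ne_zero456 U w₂)) := by
  apply Units.ext
  rw [Units.val_mul, idl456_val, idl456_val]
  apply adl_ext456
  · funext u
    rw [h1 u, adl_fst_mul456, aLoc456_fst, aLoc456_fst, mul_one]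
    rfl
  · apply FiniteAdeleRing.ext
    intro w
    rw [adl_snd_mul456, fin_mul_apply456, aLoc456_snd, aLoc456_snd]
    by_cases hw1 : w = w₁
    · subst hw1
      rw [fOne456_same, fOne456_ne _ _ hne, mul_one]
      rfl
    · by_cases hw2 : w = w₂
      · subst hw2
        rw [fOne456_same, fOne456_ne _ _ hw1, one_mul]
        rfl
      · rw [fOne456_ne _ _ hw1, fOne456_ne _ _ hw2, h2 w hw1 hw2, mul_one]

/-- An idele with trivial infinite components, trivial outside `w`, is its local component. -/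
theorem unit_eq_one456 {w : HeightOneSpectrum (𝓞 K)} (U : (A0.Adl K)ˣ)
    (h1 : ∀ u, (U : A0.Adl K).1 u = 1)
    (h2 : ∀ w', w' ≠ w → (U : A0.Adl K).2 w' = 1) :
    U = idl456 w (Units.mk0 _ (idele_snd_ne_zero456 U w)) := by
  apply Units.ext
  rw [idl456_val]
  apply adl_ext456
  · funext u
    rw [h1 u, aLoc456_fst]
    rfl
  · apply FiniteAdeleRing.ext
    intro w'
    rw [aLoc456_snd]
    by_cases hw1 : w' = w
    · subst hw1
      rw [fOne456_same]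
      rfl
    · rw [fOne456_ne _ _ hw1, h2 w' hw1]

theorem chi_two456 {χ : (A0.Adl K)ˣ →* ℂˣ} {w₁ w₂ : HeightOneSpectrum (𝓞 K)} (hne : w₁ ≠ w₂)
    (hχ1 : UnramAt χ w₁) (hχ2 : UnramAt χ w₂) (U : (A0.Adl K)ˣ)
    (h1 : ∀ u, (U : A0.Adl K).1 u = 1)
    (h2 : ∀ w, w ≠ w₁ → w ≠ w₂ → (U : A0.Adl K).2 w = 1)
    {z₁ z₂ : (A0.Adl K)ˣ} (hz1 : IsIdeleAt w₁ z₁) (hz2 : IsIdeleAt w₂ z₂)
    (hv1 : Valued.v ((U : A0.Adl K).2 w₁) = Valued.v ((z₁ : A0.Adl K).2 w₁))
    (hv2 : Valued.v ((U : A0.Adl K).2 w₂) = Valued.v ((z₂ : A0.Adl K).2 w₂)) :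
    χ U = χ z₁ * χ z₂ := by
  conv_lhs => rw [unit_eq_two456 hne U h1 h2]
  rw [map_mul]
  congr 1
  · apply chi_eq_of_unram456 hχ1 (idl456_isIdeleAt _ _) hz1
    rw [idl456_at]
    exact hv1
  · apply chi_eq_of_unram456 hχ2 (idl456_isIdeleAt _ _) hz2
    rw [idl456_at]
    exact hv2

theorem chi_one456 {χ : (A0.Adl K)ˣ →* ℂˣ} {w : HeightOneSpectrum (𝓞 K)}
    (hχ : UnramAt χ w) (U : (A0.Adl K)ˣ)
    (h1 : ∀ u, (U : A0.Adl K).1 u = 1)
    (h2 : ∀ w', w' ≠ w → (U : A0.Adl K).2 w' = 1)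
    {z : (A0.Adl K)ˣ} (hz : IsIdeleAt w z)
    (hv : Valued.v ((U : A0.Adl K).2 w) = Valued.v ((z : A0.Adl K).2 w)) :
    χ U = χ z :=
  chi_eq_of_unram456 hχ ⟨h1, h2⟩ hz hv

end Fermat.Agent.LT.A2.H456

end
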