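import Fermat.Agent.LT.A2.H456.Theta2

/-!
# Row LT, tower A2, leaf A2.02 `TorusCharC` -- top assembly, part 3 (helper456), OFF-MAIN

Adeles and ideles supported at one finite place; torus elements supported at one finite place
with a rational component.
-/

set_option autoImplicit false

open IsDedekindDomain NumberField AutomorphicForm
open scoped MatrixGroups

noncomputable section

namespace Fermat.Agent.LT.A2.H456

open Fermat.Agent.LT.H130 Fermat.Agent.LT.H556 Fermat.Agent.LT.A2 Fermat.Agent.LT.A2.H83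

section Adele

variable {K : Type} [Field K] [NumberField K]

open Classical in
/-- The finite adele with component `x` at `v` and `1` elsewhere. -/
def fOne456 (v : HeightOneSpectrum (𝓞 K)) (x : v.adicCompletion K) : FiniteAdeleRing (𝓞 K) K :=
  RestrictedProduct.mulSingle (fun v : HeightOneSpectrum (𝓞 K) => v.adicCompletionIntegers K) v x

open Classical in
/-- The finite adele with component `x` at `v` and `0` elsewhere. -/
def fZero456 (v : HeightOneSpectrum (𝓞 K)) (x : v.adicCompletion K) : FiniteAdeleRing (𝓞 K) K :=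
  RestrictedProduct.single (fun v : HeightOneSpectrum (𝓞 K) => v.adicCompletionIntegers K) v x

theorem fin_mul_apply456 (a b : FiniteAdeleRing (𝓞 K) K) (v : HeightOneSpectrum (𝓞 K)) :
    (a * b) v = a v * b v := rfl

theorem fin_add_apply456 (a b : FiniteAdeleRing (𝓞 K) K) (v : HeightOneSpectrum (𝓞 K)) :
    (a + b) v = a v + b v := rfl

theorem fin_one_apply456 (v : HeightOneSpectrum (𝓞 K)) :
    (1 : FiniteAdeleRing (𝓞 K) K) v = 1 := rfl

theorem fin_zero_apply456 (v : HeightOneSpectrum (𝓞 K)) :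
    (0 : FiniteAdeleRing (𝓞 K) K) v = 0 := rfl

theorem fOne456_same (v : HeightOneSpectrum (𝓞 K)) (x : v.adicCompletion K) :
    fOne456 v x v = x := by
  classical
  exact RestrictedProduct.mulSingle_eq_same
    (fun v : HeightOneSpectrum (𝓞 K) => v.adicCompletionIntegers K) v x

theorem fOne456_ne (v : HeightOneSpectrum (𝓞 K)) (x : v.adicCompletion K)
    {v' : HeightOneSpectrum (𝓞 K)} (h : v' ≠ v) : fOne456 v x v' = 1 := by
  classical
  exact RestrictedProduct.mulSingle_eq_of_ne
    (fun v : HeightOneSpectrum (𝓞 K) => v.adicCompletionIntegers K) x h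

theorem fZero456_same (v : HeightOneSpectrum (𝓞 K)) (x : v.adicCompletion K) :
    fZero456 v x v = x := by
  classical
  exact RestrictedProduct.single_eq_same
    (fun v : HeightOneSpectrum (𝓞 K) => v.adicCompletionIntegers K) v x

theorem fZero456_ne (v : HeightOneSpectrum (𝓞 K)) (x : v.adicCompletion K)
    {v' : HeightOneSpectrum (𝓞 K)} (h : v' ≠ v) : fZero456 v x v' = 0 := by
  classical
  exact RestrictedProduct.single_eq_of_ne
    (fun v : HeightOneSpectrum (𝓞 K) => v.adicCompletionIntegers K) x h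

theorem fOne456_mul (v : HeightOneSpectrum (𝓞 K)) (x y : v.adicCompletion K) :
    fOne456 v (x * y) = fOne456 v x * fOne456 v y := by
  apply FiniteAdeleRing.ext
  intro v'
  by_cases h : v' = v
  · subst h
    rw [fin_mul_apply456, fOne456_same, fOne456_same, fOne456_same]
  · rw [fin_mul_apply456, fOne456_ne _ _ h, fOne456_ne _ _ h, fOne456_ne _ _ h, mul_one]

theorem fOne456_one (v : HeightOneSpectrum (𝓞 K)) : fOne456 v (1 : v.adicCompletion K) = 1 := by
  apply FiniteAdeleRing.ext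
  intro v'
  by_cases h : v' = v
  · subst h
    rw [fOne456_same]; rfl
  · rw [fOne456_ne _ _ h]; rfl

/-- The adele `(1_∞, x at v, 1 elsewhere)`. -/
def aLoc456 (v : HeightOneSpectrum (𝓞 K)) (x : v.adicCompletion K) : A0.Adl K :=
  ((1 : InfiniteAdeleRing K), fOne456 v x)

/-- The adele `(0_∞, x at v, 0 elsewhere)`. -/
def bLoc456 (v : HeightOneSpectrum (𝓞 K)) (x : v.adicCompletion K) : A0.Adl K :=
  ((0 : InfiniteAdeleRing K), fZero456 v x)

theorem aLoc456_fst (v : HeightOneSpectrum (𝓞 K)) (x : v.adicCompletion K) :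
    (aLoc456 v x).1 = 1 := rfl

theorem aLoc456_snd (v : HeightOneSpectrum (𝓞 K)) (x : v.adicCompletion K) :
    (aLoc456 v x).2 = fOne456 v x := rfl

theorem bLoc456_fst (v : HeightOneSpectrum (𝓞 K)) (x : v.adicCompletion K) :
    (bLoc456 v x).1 = 0 := rfl

theorem bLoc456_snd (v : HeightOneSpectrum (𝓞 K)) (x : v.adicCompletion K) :
    (bLoc456 v x).2 = fZero456 v x := rfl

theorem aLoc456_mul (v : HeightOneSpectrum (𝓞 K)) (x y : v.adicCompletion K) :
    aLoc456 v (x * y) = aLoc456 v x * aLoc456 v y := by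
  apply adl_ext456
  · rw [adl_fst_mul456, aLoc456_fst, aLoc456_fst, aLoc456_fst, mul_one]
  · rw [adl_snd_mul456, aLoc456_snd, aLoc456_snd, aLoc456_snd, fOne456_mul]

theorem aLoc456_one (v : HeightOneSpectrum (𝓞 K)) : aLoc456 v (1 : v.adicCompletion K) = 1 := by
  apply adl_ext456
  · rfl
  · rw [aLoc456_snd, fOne456_one]; rfl

/-- The monoid homomorphism `K_v → 𝔸_K`, `x ↦ (1_∞, x at v, 1 elsewhere)`. -/
def aLocHom456 (v : HeightOneSpectrum (𝓞 K)) : v.adicCompletion K →* A0.Adl K where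
  toFun := aLoc456 v
  map_one' := aLoc456_one v
  map_mul' := aLoc456_mul v

/-- The idele with component `x` at `v`, `1` elsewhere. -/
def idl456 (v : HeightOneSpectrum (𝓞 K)) : (v.adicCompletion K)ˣ →* (A0.Adl K)ˣ :=
  Units.map (aLocHom456 v)

theorem idl456_val (v : HeightOneSpectrum (𝓞 K)) (x : (v.adicCompletion K)ˣ) :
    ((idl456 v x : (A0.Adl K)ˣ) : A0.Adl K) = aLoc456 v x := rfl

theorem idl456_isIdeleAt (v : HeightOneSpectrum (𝓞 K)) (x : (v.adicCompletion K)ˣ) :
    IsIdeleAt v (idl456 v x) := by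
  constructor
  · intro u
    rw [idl456_val, aLoc456_fst]; rfl
  · intro w' hw'
    rw [idl456_val, aLoc456_snd, fOne456_ne _ _ hw']

theorem idl456_at (v : HeightOneSpectrum (𝓞 K)) (x : (v.adicCompletion K)ˣ) :
    ((idl456 v x : (A0.Adl K)ˣ) : A0.Adl K).2 v = x := by
  rw [idl456_val, aLoc456_snd, fOne456_same]

/-! ## Components of inverses and products of ideles -/

theorem idele_fst_mul_inv456 (z : (A0.Adl K)ˣ) (u : InfinitePlace K) :
    (z : A0.Adl K).1 u * ((z⁻¹ : (A0.Adl K)ˣ) : A0.Adl K).1 u = 1 := by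
  have h : (z : A0.Adl K) * ((z⁻¹ : (A0.Adl K)ˣ) : A0.Adl K) = 1 := Units.mul_inv z
  have h1 := congrArg (fun a : A0.Adl K => a.1 u) h
  exact h1

theorem idele_snd_mul_inv456 (z : (A0.Adl K)ˣ) (v : HeightOneSpectrum (𝓞 K)) :
    (z : A0.Adl K).2 v * ((z⁻¹ : (A0.Adl K)ˣ) : A0.Adl K).2 v = 1 := by
  have h : (z : A0.Adl K) * ((z⁻¹ : (A0.Adl K)ˣ) : A0.Adl K) = 1 := Units.mul_inv z
  have h1 := congrArg (fun a : A0.Adl K => a.2 v) h
  exact h1

theorem isIdeleAt_mul456 {v : HeightOneSpectrum (𝓞 K)} {x y : (A0.Adl K)ˣ}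
    (hx : IsIdeleAt v x) (hy : IsIdeleAt v y) : IsIdeleAt v (x * y) := by
  constructor
  · intro u
    rw [Units.val_mul, adl_fst_mul456]
    show (x : A0.Adl K).1 u * (y : A0.Adl K).1 u = 1
    rw [hx.1 u, hy.1 u, mul_one]
  · intro w' hw'
    rw [Units.val_mul, adl_snd_mul456, fin_mul_apply456, hx.2 w' hw', hy.2 w' hw',
      mul_one]

theorem isIdeleAt_inv456 {v : HeightOneSpectrum (𝓞 K)} {x : (A0.Adl K)ˣ}
    (hx : IsIdeleAt v x) : IsIdeleAt v x⁻¹ := by
  constructor
  · intro u
    have h := idele_fst_mul_inv456 x u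
    rw [hx.1 u, one_mul] at h
    exact h
  · intro w' hw'
    have h := idele_snd_mul_inv456 x w'
    rw [hx.2 w' hw', one_mul] at h
    exact h

theorem val_inv_idele456 (x : (A0.Adl K)ˣ) (v : HeightOneSpectrum (𝓞 K)) :
    Valued.v (((x⁻¹ : (A0.Adl K)ˣ) : A0.Adl K).2 v) = (Valued.v ((x : A0.Adl K).2 v))⁻¹ := by
  have h := idele_snd_mul_inv456 x v
  have h1 := congrArg Valued.v h
  rw [map_mul, map_one] at h1
  exact eq_inv_of_mul_eq_one_right h1

/-- Two ideles supported at `w` with the same valuation at `w` have the same value under a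
character unramified at `w`. -/
theorem chi_eq_of_unram456 {χ : (A0.Adl K)ˣ →* ℂˣ} {v : HeightOneSpectrum (𝓞 K)}
    (hχ : UnramAt χ v) {x z : (A0.Adl K)ˣ} (hx : IsIdeleAt v x) (hz : IsIdeleAt v z)
    (hv : Valued.v ((x : A0.Adl K).2 v) = Valued.v ((z : A0.Adl K).2 v)) : χ x = χ z := by
  have h1 : χ (x * z⁻¹) = 1 := by
    apply hχ
    refine ⟨isIdeleAt_mul456 hx (isIdeleAt_inv456 hz), ?_⟩
    rw [Units.val_mul, adl_snd_mul456, fin_mul_apply456, map_mul, val_inv_idele456, hv]
    apply mul_inv_cancel₀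
    intro h0
    have hne : (z : A0.Adl K).2 v ≠ 0 := by
      intro h00
      have h := idele_snd_mul_inv456 z v
      rw [h00, zero_mul] at h
      exact zero_ne_one h
    exact hne ((map_eq_zero _).mp h0)
  rw [map_mul, map_inv, mul_inv_eq_one] at h1
  exact h1

end Adele

end Fermat.Agent.LT.A2.H456

end
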