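import Fermat.Agent.LT.A2.H456.Loc

/-!
# Row LT, tower A2, leaf A2.02 `TorusCharC` -- top assembly, part 4 (helper456), OFF-MAIN

Torus elements supported at one finite place, with a rational component.
-/

set_option autoImplicit false

open IsDedekindDomain NumberField AutomorphicForm
open scoped MatrixGroups

noncomputable section

namespace Fermat.Agent.LT.A2.H456

open Fermat.Agent.LT.H130 Fermat.Agent.LT.H556 Fermat.Agent.LT.A2 Fermat.Agent.LT.A2.H83

section Comp

variable {K : Type} [Field K] [NumberField K]

theorem adl_fst_sub456 (a b : A0.Adl K) : (a - b).1 = a.1 - b.1 := rfl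
theorem adl_fst_neg456 (a : A0.Adl K) : (-a).1 = -a.1 := rfl
theorem adl_fst_pow456 (a : A0.Adl K) (k : ℕ) : (a ^ k).1 = a.1 ^ k := rfl
theorem adl_snd_pow456 (a : A0.Adl K) (k : ℕ) : (a ^ k).2 = a.2 ^ k := rfl

theorem inf_mul_apply456 (a b : InfiniteAdeleRing K) (u : InfinitePlace K) :
    (a * b) u = a u * b u := rfl
theorem inf_add_apply456 (a b : InfiniteAdeleRing K) (u : InfinitePlace K) :
    (a + b) u = a u + b u := rfl
theorem inf_sub_apply456 (a b : InfiniteAdeleRing K) (u : InfinitePlace K) :
    (a - b) u = a u - b u := rfl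
theorem inf_neg_apply456 (a : InfiniteAdeleRing K) (u : InfinitePlace K) :
    (-a) u = -a u := rfl
theorem inf_pow_apply456 (a : InfiniteAdeleRing K) (k : ℕ) (u : InfinitePlace K) :
    (a ^ k) u = a u ^ k := rfl
theorem inf_one_apply456 (u : InfinitePlace K) : (1 : InfiniteAdeleRing K) u = 1 := rfl
theorem inf_zero_apply456 (u : InfinitePlace K) : (0 : InfiniteAdeleRing K) u = 0 := rfl

theorem fin_sub_apply456 (a b : FiniteAdeleRing (𝓞 K) K) (v : HeightOneSpectrum (𝓞 K)) :
    (a - b) v = a v - b v := rfl
theorem fin_neg_apply456 (a : FiniteAdeleRing (𝓞 K) K) (v : HeightOneSpectrum (𝓞 K)) :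
    (-a) v = -a v := rfl
theorem fin_pow_apply456 (a : FiniteAdeleRing (𝓞 K) K) (k : ℕ) (v : HeightOneSpectrum (𝓞 K)) :
    (a ^ k) v = a v ^ k := rfl
theorem fin_algebraMap_apply456 (x : K) (v : HeightOneSpectrum (𝓞 K)) :
    (algebraMap K (FiniteAdeleRing (𝓞 K) K) x) v = algebraMap K (v.adicCompletion K) x := rfl

theorem adl_eq_aLoc456 {X : A0.Adl K} {v : HeightOneSpectrum (𝓞 K)} {c : v.adicCompletion K}
    (h1 : ∀ u, X.1 u = 1) (h2 : X.2 v = c) (h3 : ∀ v', v' ≠ v → X.2 v' = 1) :
    X = aLoc456 v c := by
  apply adl_ext456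
  · funext u
    rw [h1 u]; rfl
  · apply FiniteAdeleRing.ext
    intro v'
    by_cases h : v' = v
    · subst h
      rw [h2, aLoc456_snd, fOne456_same]
    · rw [h3 v' h, aLoc456_snd, fOne456_ne _ _ h]

theorem adl_eq_bLoc456 {X : A0.Adl K} {v : HeightOneSpectrum (𝓞 K)} {c : v.adicCompletion K}
    (h1 : ∀ u, X.1 u = 0) (h2 : X.2 v = c) (h3 : ∀ v', v' ≠ v → X.2 v' = 0) :
    X = bLoc456 v c := by
  apply adl_ext456
  · funext u
    rw [h1 u]; rfl
  · apply FiniteAdeleRing.ext
    intro v'
    by_cases h : v' = v
    · subst h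
      rw [h2, bLoc456_snd, fZero456_same]
    · rw [h3 v' h, bLoc456_snd, fZero456_ne _ _ h]

end Comp

section LocT

variable {K : Type} [Field K] [NumberField K] (t n : K)

local notation "tA" => algebraMap K (A0.Adl K) t
local notation "nA" => algebraMap K (A0.Adl K) n

/-- The norm form `N(x + y ω) = x² + t x y + n y²`. -/
def nf456 (x y : K) : K := x ^ 2 + t * x * y + n * y ^ 2

/-- The product in the coordinates `1, ω`. -/
def tm1_456 (x y x' y' : K) : K := x * x' - n * (y * y')

/-- The product in the coordinates `1, ω`. -/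
def tm2_456 (x y x' y' : K) : K := x * y' + y * x' + t * (y * y')

variable (v : HeightOneSpectrum (𝓞 K))

/-- The adelic coordinates of the torus element supported at `v` with component `x + y ω`. -/
def locA456 (x : K) : A0.Adl K := aLoc456 v (algebraMap K (v.adicCompletion K) x)

/-- The adelic coordinates of the torus element supported at `v` with component `x + y ω`. -/
def locB456 (y : K) : A0.Adl K := bLoc456 v (algebraMap K (v.adicCompletion K) y)

theorem locA456_fst (x : K) (u : InfinitePlace K) : (locA456 v x).1 u = 1 := rfl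
theorem locB456_fst (x : K) (u : InfinitePlace K) : (locB456 v x).1 u = 0 := rfl
theorem locA456_same (x : K) : (locA456 v x).2 v = algebraMap K (v.adicCompletion K) x :=
  fOne456_same _ _
theorem locB456_same (x : K) : (locB456 v x).2 v = algebraMap K (v.adicCompletion K) x :=
  fZero456_same _ _
theorem locA456_ne (x : K) {v' : HeightOneSpectrum (𝓞 K)} (h : v' ≠ v) :
    (locA456 v x).2 v' = 1 := fOne456_ne _ _ h
theorem locB456_ne (x : K) {v' : HeightOneSpectrum (𝓞 K)} (h : v' ≠ v) :
    (locB456 v x).2 v' = 0 := fZero456_ne _ _ h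

theorem locA456_one : locA456 v 1 = 1 := by
  unfold locA456
  rw [map_one, aLoc456_one]

theorem locB456_zero : locB456 v 0 = 0 := by
  symm
  apply adl_eq_bLoc456
  · intro u; rfl
  · rw [map_zero]; rfl
  · intro v' _; rfl

theorem loc_nf456 (x y : K) :
    locA456 v x ^ 2 + tA * locA456 v x * locB456 v y + nA * locB456 v y ^ 2
      = locA456 v (nf456 t n x y) := by
  apply adl_eq_aLoc456
  · intro u
    simp only [adl_fst_add456, adl_fst_mul456, adl_fst_pow456, inf_add_apply456,
      inf_mul_apply456, inf_pow_apply456, locA456_fst, locB456_fst]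
    ring
  · simp only [adl_snd_add456, adl_snd_mul456, adl_snd_pow456, fin_add_apply456,
      fin_mul_apply456, fin_pow_apply456, locA456_same, locB456_same, algebraMap_adl_snd456,
      fin_algebraMap_apply456, nf456, map_add, map_mul, map_pow]
  · intro v' hv'
    simp only [adl_snd_add456, adl_snd_mul456, adl_snd_pow456, fin_add_apply456,
      fin_mul_apply456, fin_pow_apply456, locA456_ne v _ hv', locB456_ne v _ hv']
    ring

theorem loc_tm1_456 (x y x' y' : K) :
    locA456 v x * locA456 v x' - nA * (locB456 v y * locB456 v y')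
      = locA456 v (tm1_456 n x y x' y') := by
  apply adl_eq_aLoc456
  · intro u
    simp only [adl_fst_sub456, adl_fst_mul456, inf_sub_apply456,
      inf_mul_apply456, locA456_fst, locB456_fst]
    ring
  · simp only [adl_snd_sub456, adl_snd_mul456, fin_sub_apply456,
      fin_mul_apply456, locA456_same, locB456_same, algebraMap_adl_snd456,
      fin_algebraMap_apply456, tm1_456, map_sub, map_mul]
  · intro v' hv'
    simp only [adl_snd_sub456, adl_snd_mul456, fin_sub_apply456,
      fin_mul_apply456, locA456_ne v _ hv', locB456_ne v _ hv']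
    ring

theorem loc_tm2_456 (x y x' y' : K) :
    locA456 v x * locB456 v y' + locB456 v y * locA456 v x' + tA * (locB456 v y * locB456 v y')
      = locB456 v (tm2_456 t x y x' y') := by
  apply adl_eq_bLoc456
  · intro u
    simp only [adl_fst_add456, adl_fst_mul456, inf_add_apply456,
      inf_mul_apply456, locA456_fst, locB456_fst]
    ring
  · simp only [adl_snd_add456, adl_snd_mul456, fin_add_apply456,
      fin_mul_apply456, locA456_same, locB456_same, algebraMap_adl_snd456,
      fin_algebraMap_apply456, tm2_456, map_add, map_mul]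
  · intro v' hv'
    simp only [adl_snd_add456, adl_snd_mul456, fin_add_apply456,
      fin_mul_apply456, locA456_ne v _ hv', locB456_ne v _ hv']
    ring

theorem isUnit_locA456 {c : K} (hc : c ≠ 0) : IsUnit (locA456 v c) := by
  have h0 : algebraMap K (v.adicCompletion K) c ≠ 0 := by
    rw [Ne, map_eq_zero]; exact hc
  have := (idl456 v (Units.mk0 _ h0)).isUnit
  rw [idl456_val] at this
  exact this

/-- The matrix of the torus element supported at `v` with rational component `x + y ω`. -/
def locMat456 (x y : K) : Matrix (Fin 2) (Fin 2) (A0.Adl K) :=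
  torMat tA nA (locA456 v x) (locB456 v y)

theorem locMat456_det (x y : K) :
    (locMat456 t n v x y).det = locA456 v (nf456 t n x y) := by
  unfold locMat456
  rw [torMat_det456, loc_nf456]

/-- The torus element supported at `v` with rational component `x + y ω`. -/
def locT456 (x y : K) (h : nf456 t n x y ≠ 0) : A0.G K :=
  Matrix.GeneralLinearGroup.mk'' (locMat456 t n v x y)
    (by rw [locMat456_det]; exact isUnit_locA456 v h)

theorem locT456_val (x y : K) (h : nf456 t n x y ≠ 0) :
    ((locT456 t n v x y h : A0.G K) : Matrix (Fin 2) (Fin 2) (A0.Adl K))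
      = torMat tA nA (locA456 v x) (locB456 v y) := rfl

theorem locT456_inTorus (x y : K) (h : nf456 t n x y ≠ 0) :
    InTorus t n (locT456 t n v x y h) := ⟨_, _, locT456_val t n v x y h⟩

theorem locT456_det (x y : K) (h : nf456 t n x y ≠ 0) :
    ((Matrix.GeneralLinearGroup.det (locT456 t n v x y h) : (A0.Adl K)ˣ) : A0.Adl K)
      = locA456 v (nf456 t n x y) := by
  rw [Matrix.GeneralLinearGroup.val_det_apply]
  exact locMat456_det t n v x y

theorem locT456_mul (x y x' y' : K) (h : nf456 t n x y ≠ 0) (h' : nf456 t n x' y' ≠ 0)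
    (h'' : nf456 t n (tm1_456 n x y x' y') (tm2_456 t x y x' y') ≠ 0) :
    locT456 t n v x y h * locT456 t n v x' y' h'
      = locT456 t n v (tm1_456 n x y x' y') (tm2_456 t x y x' y') h'' := by
  apply Units.ext
  rw [Units.val_mul, locT456_val, locT456_val, locT456_val, torMat_mul456, loc_tm1_456,
    loc_tm2_456]

end LocT

end Fermat.Agent.LT.A2.H456

end
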