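import Fermat.Agent.LT.A2.H456.Loc2

/-!
# Row LT, tower A2, leaf A2.02 `TorusCharC` -- top assembly, part 5 (helper456), OFF-MAIN

Local conditions for the torus elements supported at one finite place; the value of `Θ` on them.
-/

set_option autoImplicit false

open IsDedekindDomain NumberField AutomorphicForm
open scoped MatrixGroups

noncomputable section

namespace Fermat.Agent.LT.A2.H456

open Fermat.Agent.LT.H130 Fermat.Agent.LT.H556 Fermat.Agent.LT.A2 Fermat.Agent.LT.A2.H83

section LocT

variable {K : Type} [Field K] [NumberField K] (t n : K) (v : HeightOneSpectrum (𝓞 K))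

local notation "tA" => algebraMap K (A0.Adl K) t
local notation "nA" => algebraMap K (A0.Adl K) n
local notation "cv" => algebraMap K (HeightOneSpectrum.adicCompletion K v)

theorem torMat_apply01_456 {R : Type*} [CommRing R] (t n a b : R) :
    torMat t n a b 0 1 = -(n * b) := by simp [torMat]

theorem torMat_apply11_456 {R : Type*} [CommRing R] (t n a b : R) :
    torMat t n a b 1 1 = a + t * b := by simp [torMat]

theorem finComp_apply456 (v : HeightOneSpectrum (𝓞 K)) (g : A0.G K) (i j : Fin 2) :
    A0.finComp v g i j = ((g : Matrix (Fin 2) (Fin 2) (A0.Adl K)) i j).2 v := rfl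

theorem finComp_locT_same456 (x y : K) (h : nf456 t n x y ≠ 0) :
    A0.finComp v (locT456 t n v x y h) = torMat (cv t) (cv n) (cv x) (cv y) := by
  refine Matrix.ext fun i j => ?_
  rw [finComp_apply456, locT456_val]
  fin_cases i <;> fin_cases j
  · show (torMat tA nA (locA456 v x) (locB456 v y) 0 0).2 v = torMat (cv t) (cv n) (cv x) (cv y) 0 0
    rw [torMat_apply00_456, torMat_apply00_456, locA456_same]
  · show (torMat tA nA (locA456 v x) (locB456 v y) 0 1).2 v = torMat (cv t) (cv n) (cv x) (cv y) 0 1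
    rw [torMat_apply01_456, torMat_apply01_456, adl_snd_neg456, adl_snd_mul456, fin_neg_apply456,
      fin_mul_apply456, locB456_same, algebraMap_adl_snd456, fin_algebraMap_apply456]
  · show (torMat tA nA (locA456 v x) (locB456 v y) 1 0).2 v = torMat (cv t) (cv n) (cv x) (cv y) 1 0
    rw [torMat_apply10_456, torMat_apply10_456, locB456_same]
  · show (torMat tA nA (locA456 v x) (locB456 v y) 1 1).2 v = torMat (cv t) (cv n) (cv x) (cv y) 1 1
    rw [torMat_apply11_456, torMat_apply11_456, adl_snd_add456, adl_snd_mul456, fin_add_apply456,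
      fin_mul_apply456, locA456_same, locB456_same, algebraMap_adl_snd456,
      fin_algebraMap_apply456]

theorem finComp_locT_ne456 (x y : K) (h : nf456 t n x y ≠ 0) {v' : HeightOneSpectrum (𝓞 K)}
    (hv' : v' ≠ v) : A0.finComp v' (locT456 t n v x y h) = 1 := by
  refine Matrix.ext fun i j => ?_
  rw [finComp_apply456, locT456_val]
  fin_cases i <;> fin_cases j
  · show (torMat tA nA (locA456 v x) (locB456 v y) 0 0).2 v' = (1 : Matrix (Fin 2) (Fin 2) _) 0 0
    rw [torMat_apply00_456, locA456_ne v x hv', Matrix.one_apply_eq]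
  · show (torMat tA nA (locA456 v x) (locB456 v y) 0 1).2 v' = (1 : Matrix (Fin 2) (Fin 2) _) 0 1
    rw [torMat_apply01_456, adl_snd_neg456, adl_snd_mul456, fin_neg_apply456,
      fin_mul_apply456, locB456_ne v y hv', mul_zero, neg_zero,
      Matrix.one_apply_ne (by decide : (0 : Fin 2) ≠ 1)]
  · show (torMat tA nA (locA456 v x) (locB456 v y) 1 0).2 v' = (1 : Matrix (Fin 2) (Fin 2) _) 1 0
    rw [torMat_apply10_456, locB456_ne v y hv',
      Matrix.one_apply_ne (by decide : (1 : Fin 2) ≠ 0)]
  · show (torMat tA nA (locA456 v x) (locB456 v y) 1 1).2 v' = (1 : Matrix (Fin 2) (Fin 2) _) 1 1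
    rw [torMat_apply11_456, adl_snd_add456, adl_snd_mul456, fin_add_apply456,
      fin_mul_apply456, locA456_ne v x hv', locB456_ne v y hv', mul_zero, add_zero,
      Matrix.one_apply_eq]

theorem locT456_trivAtInf (x y : K) (h : nf456 t n x y ≠ 0) (u : InfinitePlace K) :
    A0.TrivAtInf u (locT456 t n v x y h) := by
  intro i j
  rw [locT456_val]
  fin_cases i <;> fin_cases j
  · show (torMat tA nA (locA456 v x) (locB456 v y) 0 0).1 u = (1 : Matrix (Fin 2) (Fin 2) _) 0 0
    rw [torMat_apply00_456, locA456_fst, Matrix.one_apply_eq]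
  · show (torMat tA nA (locA456 v x) (locB456 v y) 0 1).1 u = (1 : Matrix (Fin 2) (Fin 2) _) 0 1
    rw [torMat_apply01_456, adl_fst_neg456, adl_fst_mul456, inf_neg_apply456,
      inf_mul_apply456, locB456_fst, mul_zero, neg_zero,
      Matrix.one_apply_ne (by decide : (0 : Fin 2) ≠ 1)]
  · show (torMat tA nA (locA456 v x) (locB456 v y) 1 0).1 u = (1 : Matrix (Fin 2) (Fin 2) _) 1 0
    rw [torMat_apply10_456, locB456_fst,
      Matrix.one_apply_ne (by decide : (1 : Fin 2) ≠ 0)]
  · show (torMat tA nA (locA456 v x) (locB456 v y) 1 1).1 u = (1 : Matrix (Fin 2) (Fin 2) _) 1 1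
    rw [torMat_apply11_456, adl_fst_add456, adl_fst_mul456, inf_add_apply456,
      inf_mul_apply456, locA456_fst, locB456_fst, mul_zero, add_zero,
      Matrix.one_apply_eq]

theorem locT456_isLocalAtFin (x y : K) (h : nf456 t n x y ≠ 0) :
    A0.IsLocalAtFin v (locT456 t n v x y h) :=
  ⟨fun u => locT456_trivAtInf t n v x y h u,
    fun _ hv' => finComp_locT_ne456 t n v x y h hv'⟩

theorem locT456_isIntegralAt {x y : K} (h : nf456 t n x y ≠ 0)
    (ht : IntAt83 v t) (hn : IntAt83 v n) (hx : IntAt83 v x) (hy : IntAt83 v y) :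
    A0.IsIntegralAt v (locT456 t n v x y h) := by
  intro i j
  rw [finComp_locT_same456]
  unfold IntAt83 at ht hn hx hy
  have hx' : cv x ∈ v.adicCompletionIntegers K := hx
  have hy' : cv y ∈ v.adicCompletionIntegers K := hy
  have ht' : cv t ∈ v.adicCompletionIntegers K := ht
  have hn' : cv n ∈ v.adicCompletionIntegers K := hn
  fin_cases i <;> fin_cases j
  · show torMat (cv t) (cv n) (cv x) (cv y) 0 0 ∈ _
    rw [torMat_apply00_456]; exact hx'
  · show torMat (cv t) (cv n) (cv x) (cv y) 0 1 ∈ _
    rw [torMat_apply01_456]; exact neg_mem (mul_mem hn' hy')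
  · show torMat (cv t) (cv n) (cv x) (cv y) 1 0 ∈ _
    rw [torMat_apply10_456]; exact hy'
  · show torMat (cv t) (cv n) (cv x) (cv y) 1 1 ∈ _
    rw [torMat_apply11_456]; exact add_mem hx' (mul_mem ht' hy')

theorem intAt_of_locT456_isIntegralAt {x y : K} (h : nf456 t n x y ≠ 0)
    (hI : A0.IsIntegralAt v (locT456 t n v x y h)) : IntAt83 v x ∧ IntAt83 v y := by
  have h0 := hI 0 0
  have h1 := hI 1 0
  rw [finComp_locT_same456, torMat_apply00_456] at h0
  rw [finComp_locT_same456, torMat_apply10_456] at h1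
  exact ⟨h0, h1⟩

theorem locT456_val_det (x y : K) (h : nf456 t n x y ≠ 0) :
    Valued.v (A0.finComp v (locT456 t n v x y h)).det = val83 v (nf456 t n x y) := by
  rw [finComp_locT_same456, torMat_det456]
  unfold val83 nf456
  simp only [map_add, map_mul, map_pow]

end LocT

section ThetaLoc

variable {K L : Type} [Field K] [NumberField K] [Field L] [NumberField L] [Algebra K L]
variable {t n : K} {ω : L} {ι : FiniteAdeleRing (𝓞 K) K →+* FiniteAdeleRing (𝓞 L) L}

theorem thetaG_locT456 (v : HeightOneSpectrum (𝓞 K)) (x y : K) (h : nf456 t n x y ≠ 0) :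
    thetaG456 ω ι (locT456 t n v x y h) = theta456 ι ω (locA456 v x) (locB456 v y) :=
  thetaG456_of_eq (locT456_val t n v x y h)

theorem thetaG_locT456_fst (v : HeightOneSpectrum (𝓞 K)) (x y : K) (h : nf456 t n x y ≠ 0) :
    (thetaG456 ω ι (locT456 t n v x y h)).1 = 1 := by
  rw [thetaG_locT456]; rfl

theorem thetaG_locT456_over (hι : IsBC456 ι) (v : HeightOneSpectrum (𝓞 K)) (x y : K)
    (h : nf456 t n x y ≠ 0) {w : HeightOneSpectrum (𝓞 L)} (hw : LiesOverPl K w v) :
    (thetaG456 ω ι (locT456 t n v x y h)).2 w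
      = algebraMap L (w.adicCompletion L) (elt83 ω x y) := by
  rw [thetaG_locT456, theta456_snd, fin_add_apply456, fin_mul_apply456,
    hι _ v w x hw (locA456_same v x), hι _ v w y hw (locB456_same v y), fin_algebraMap_apply456]
  unfold elt83
  rw [map_add, map_mul]

theorem thetaG_locT456_not_over (hι : IsBC456 ι) (v : HeightOneSpectrum (𝓞 K)) (x y : K)
    (h : nf456 t n x y ≠ 0) {w : HeightOneSpectrum (𝓞 L)} (hw : ¬ LiesOverPl K w v) :
    (thetaG456 ω ι (locT456 t n v x y h)).2 w = 1 := by
  have hne : below456 K w ≠ v := by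
    intro h1
    exact hw (h1 ▸ liesOver_below456 w)
  have hA : (locA456 v x).2 (below456 K w)
      = algebraMap K ((below456 K w).adicCompletion K) 1 := by
    rw [locA456_ne v x hne, map_one]
  have hB : (locB456 v y).2 (below456 K w)
      = algebraMap K ((below456 K w).adicCompletion K) 0 := by
    rw [locB456_ne v y hne, map_zero]
  rw [thetaG_locT456, theta456_snd, fin_add_apply456, fin_mul_apply456,
    hι _ _ w 1 (liesOver_below456 w) hA, hι _ _ w 0 (liesOver_below456 w) hB]
  simp only [map_one, map_zero, zero_mul, add_zero]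

end ThetaLoc

end Fermat.Agent.LT.A2.H456

end
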