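import Fermat.Agent.LT.A2.H456.Idele

/-!
# Row LT, tower A2, leaf A2.02 `TorusCharC` -- top assembly, part 7 (helper456), OFF-MAIN

`χT` is trivial on `T(K)`; `χT` is not trivial on `T¹(𝔸_K)`.
-/

set_option autoImplicit false

open IsDedekindDomain NumberField AutomorphicForm
open scoped MatrixGroups

noncomputable section

namespace Fermat.Agent.LT.A2.H456

open Fermat.Agent.LT.H130 Fermat.Agent.LT.H556 Fermat.Agent.LT.A2 Fermat.Agent.LT.A2.H83

variable {K L : Type} [Field K] [NumberField K] [Field L] [NumberField L] [Algebra K L]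
variable {t n : K} {ω : L} {ι : FiniteAdeleRing (𝓞 K) K →+* FiniteAdeleRing (𝓞 L) L}
  {χ : (A0.Adl L)ˣ →* ℂˣ}

/-! ## Algebra in the coordinates `1, ω` -/

theorem nf456_mul (t n x y x' y' : K) :
    nf456 t n (tm1_456 n x y x' y') (tm2_456 t x y x' y') = nf456 t n x y * nf456 t n x' y' := by
  unfold nf456 tm1_456 tm2_456
  ring

theorem elt83_mul456 (hrel : ω ^ 2 - algebraMap K L t * ω + algebraMap K L n = 0)
    (x y x' y' : K) :
    elt83 ω (tm1_456 n x y x' y') (tm2_456 t x y x' y') = elt83 ω x y * elt83 ω x' y' := by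
  unfold elt83 tm1_456 tm2_456
  simp only [map_sub, map_add, map_mul]
  linear_combination (-(algebraMap K L y * algebraMap K L y')) * hrel

theorem elt83_ne_zero456 (hrel : ω ^ 2 - algebraMap K L t * ω + algebraMap K L n = 0)
    (hirr : ∀ x : K, x ^ 2 - t * x + n ≠ 0) {x y : K} (h : x ≠ 0 ∨ y ≠ 0) :
    elt83 ω x y ≠ 0 := by
  intro h0
  unfold elt83 at h0
  by_cases hy : y = 0
  · subst hy
    rw [map_zero, zero_mul, add_zero] at h0
    have hx : x = 0 := (map_eq_zero _).mp h0
    rcases h with h | h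
    · exact h hx
    · exact h rfl
  · have hy' : algebraMap K L y ≠ 0 := by rw [Ne, map_eq_zero]; exact hy
    have hω : ω = algebraMap K L (-x / y) := by
      rw [map_div₀, map_neg, eq_div_iff hy']
      linear_combination h0
    apply hirr (-x / y)
    apply (algebraMap K L).injective
    rw [map_zero, map_add, map_sub, map_mul, map_pow, ← hω]
    exact hrel

theorem nf456_ne_zero_imp {x y : K} (h : nf456 t n x y ≠ 0) : x ≠ 0 ∨ y ≠ 0 := by
  by_contra hc
  rw [not_or, not_not, not_not] at hc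
  apply h
  unfold nf456
  rw [hc.1, hc.2]
  ring

/-! ## `rat` -/

theorem nf456_ne_zero_of_inTorusRat {m : A0.G K} {a b : K}
    (hab : (m : Matrix (Fin 2) (Fin 2) (A0.Adl K))
      = torMat (algebraMap K (A0.Adl K) t) (algebraMap K (A0.Adl K) n)
        (algebraMap K (A0.Adl K) a) (algebraMap K (A0.Adl K) b)) :
    nf456 t n a b ≠ 0 := by
  intro h0
  have hd := det_torus456 t n hab
  have h1 : algebraMap K (A0.Adl K) a ^ 2
      + algebraMap K (A0.Adl K) t * algebraMap K (A0.Adl K) a * algebraMap K (A0.Adl K) b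
      + algebraMap K (A0.Adl K) n * algebraMap K (A0.Adl K) b ^ 2
      = algebraMap K (A0.Adl K) (nf456 t n a b) := by
    unfold nf456
    simp only [map_add, map_mul, map_pow]
  rw [h1, h0, map_zero] at hd
  have h2 := Units.mul_inv (Matrix.GeneralLinearGroup.det m)
  rw [hd, zero_mul] at h2
  have h3 : algebraMap K (A0.Adl K) 0 = algebraMap K (A0.Adl K) 1 := by
    rw [map_zero, map_one]; exact h2
  exact zero_ne_one (NumberField.AdeleRing.algebraMap_injective (𝓞 K) K h3)

theorem chiT456_rat (hrel : ω ^ 2 - algebraMap K L t * ω + algebraMap K L n = 0)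
    (hirr : ∀ x : K, x ^ 2 - t * x + n ≠ 0) (hι : IsBC456 ι)
    (hInf : ∀ z : (A0.Adl L)ˣ, (∀ w : HeightOneSpectrum (𝓞 L), (z : A0.Adl L).2 w = 1) → χ z = 1)
    (hχ : IsIdeleClassChar χ) (m : A0.G K) (hm : InTorusRat t n m) :
    chiT456 ω ι χ m = 1 := by
  obtain ⟨a, b, hab⟩ := hm
  have hT : InTorus t n m := ⟨_, _, hab⟩
  have hnf := nf456_ne_zero_of_inTorusRat hab
  have hα : elt83 ω a b ≠ 0 := elt83_ne_zero456 hrel hirr (nf456_ne_zero_imp hnf)
  rw [chiT456_eq hrel hι m hT]
  set U := unitT456 hrel hι m hT with hU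
  set P : (A0.Adl L)ˣ := Units.map (algebraMap L (A0.Adl L)).toMonoidHom (Units.mk0 _ hα) with hP
  have hPU : ∀ w : HeightOneSpectrum (𝓞 L), (P : A0.Adl L).2 w = (U : A0.Adl L).2 w := by
    intro w
    rw [hU, unitT456_val, thetaG456_of_eq hab, theta456_snd, algebraMap_adl_snd456,
      algebraMap_adl_snd456, isBC456_algebraMap hι, isBC456_algebraMap hι, fin_add_apply456,
      fin_mul_apply456, fin_algebraMap_apply456, fin_algebraMap_apply456,
      fin_algebraMap_apply456]
    show algebraMap L (w.adicCompletion L) (elt83 ω a b) = _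
    unfold elt83
    rw [map_add, map_mul]
  have hZ : χ (P⁻¹ * U) = 1 := by
    apply hInf
    intro w
    rw [Units.val_mul, adl_snd_mul456, fin_mul_apply456, ← hPU w, mul_comm]
    exact idele_snd_mul_inv456 P w
  have hPt : χ P = 1 := hχ.triv _
  rw [map_mul, map_inv, hPt, inv_one, one_mul] at hZ
  rw [hZ, Units.val_one]

end Fermat.Agent.LT.A2.H456

end
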