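import Fermat.Agent.LT.A2.H83.TorusSpec

/-!
# Row LT, tower A2, leaf A2.02 `TorusCharC` -- top assembly, part 1 (helper456), OFF-MAIN

The map `Θ(a, b) = (1_∞, ι(a_f) + ι(b_f) ω)` and its multiplicativity on torus coordinates.
-/

set_option autoImplicit false

open IsDedekindDomain NumberField AutomorphicForm
open scoped MatrixGroups

noncomputable section

namespace Fermat.Agent.LT.A2.H456

open Fermat.Agent.LT.H130 Fermat.Agent.LT.H556 Fermat.Agent.LT.A2 Fermat.Agent.LT.A2.H83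

variable {K L : Type} [Field K] [NumberField K] [Field L] [NumberField L] [Algebra K L]

/-- `Θ(a, b) = (1_∞, ι(a_f) + ι(b_f) ω)`. -/
def theta456 (ι : FiniteAdeleRing (𝓞 K) K →+* FiniteAdeleRing (𝓞 L) L) (ω : L)
    (a b : A0.Adl K) : A0.Adl L :=
  ((1 : InfiniteAdeleRing L),
    ι a.2 + ι b.2 * algebraMap L (FiniteAdeleRing (𝓞 L) L) ω)

theorem theta456_fst (ι : FiniteAdeleRing (𝓞 K) K →+* FiniteAdeleRing (𝓞 L) L) (ω : L)
    (a b : A0.Adl K) : (theta456 ι ω a b).1 = 1 := rfl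

theorem theta456_snd (ι : FiniteAdeleRing (𝓞 K) K →+* FiniteAdeleRing (𝓞 L) L) (ω : L)
    (a b : A0.Adl K) :
    (theta456 ι ω a b).2 = ι a.2 + ι b.2 * algebraMap L (FiniteAdeleRing (𝓞 L) L) ω := rfl

/-- The property of `ι` used everywhere: rational components go to rational components. -/
def IsBC456 (ι : FiniteAdeleRing (𝓞 K) K →+* FiniteAdeleRing (𝓞 L) L) : Prop :=
  ∀ (a : FiniteAdeleRing (𝓞 K) K) (v : HeightOneSpectrum (𝓞 K))
    (w : HeightOneSpectrum (𝓞 L)) (x : K), LiesOverPl K w v →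
    a v = algebraMap K (v.adicCompletion K) x →
    ι a w = algebraMap L (w.adicCompletion L) (algebraMap K L x)

/-- The place of `K` below the place `w` of `L`. -/
def below456 (K : Type) [Field K] [NumberField K] {L : Type} [Field L] [NumberField L]
    [Algebra K L] (w : HeightOneSpectrum (𝓞 L)) : HeightOneSpectrum (𝓞 K) where
  asIdeal := w.asIdeal.comap (algebraMap (𝓞 K) (𝓞 L))
  isPrime := Ideal.comap_isPrime _ _
  ne_bot := by
    have h := w.ne_bot
    intro h0
    exact h (Ideal.eq_bot_of_comap_eq_bot h0)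

theorem liesOver_below456 (w : HeightOneSpectrum (𝓞 L)) : LiesOverPl K w (below456 K w) := rfl

theorem below456_eq {w : HeightOneSpectrum (𝓞 L)} {v : HeightOneSpectrum (𝓞 K)}
    (h : LiesOverPl K w v) : below456 K w = v :=
  HeightOneSpectrum.ext h

theorem isBC456_algebraMap {ι : FiniteAdeleRing (𝓞 K) K →+* FiniteAdeleRing (𝓞 L) L}
    (hι : IsBC456 ι) (x : K) :
    ι (algebraMap K (FiniteAdeleRing (𝓞 K) K) x)
      = algebraMap L (FiniteAdeleRing (𝓞 L) L) (algebraMap K L x) := by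
  apply FiniteAdeleRing.ext
  intro w
  exact hι _ (below456 K w) w x (liesOver_below456 w) rfl

/-! ## Torus coordinates -/

section Torus

variable {R : Type*} [CommRing R]

theorem torMat_mul456 (t n a b a' b' : R) :
    torMat t n a b * torMat t n a' b'
      = torMat t n (a * a' - n * (b * b')) (a * b' + b * a' + t * (b * b')) := by
  ext i j
  fin_cases i <;> fin_cases j <;>
    simp [torMat, Matrix.mul_apply, Fin.sum_univ_two] <;> ring

theorem torMat_one456 (t n : R) : torMat t n 1 0 = 1 := by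
  ext i j
  fin_cases i <;> fin_cases j <;> simp [torMat]

theorem torMat_det456 (t n a b : R) :
    (torMat t n a b).det = a ^ 2 + t * a * b + n * b ^ 2 := by
  simp [torMat, Matrix.det_fin_two]; ring

theorem torMat_inj456 {t n a b a' b' : R} (h : torMat t n a b = torMat t n a' b') :
    a = a' ∧ b = b' := by
  have h0 := congrFun (congrFun h 0) 0
  have h1 := congrFun (congrFun h 1) 0
  simp [torMat] at h0 h1
  exact ⟨h0, h1⟩

theorem torMat_apply00_456 (t n a b : R) : torMat t n a b 0 0 = a := by simp [torMat]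

theorem torMat_apply10_456 (t n a b : R) : torMat t n a b 1 0 = b := by simp [torMat]

end Torus

section TorusG

variable (t n : K)

local notation "tA" => algebraMap K (A0.Adl K) t
local notation "nA" => algebraMap K (A0.Adl K) n

theorem inTorus_iff456 (m : A0.G K) :
    InTorus t n m ↔ (m : Matrix (Fin 2) (Fin 2) (A0.Adl K))
      = torMat tA nA ((m : Matrix (Fin 2) (Fin 2) (A0.Adl K)) 0 0)
          ((m : Matrix (Fin 2) (Fin 2) (A0.Adl K)) 1 0) := by
  constructor
  · rintro ⟨a, b, h⟩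
    rw [h, torMat_apply00_456, torMat_apply10_456]
  · intro h
    exact ⟨_, _, h⟩

theorem inTorus_one456 : InTorus t n (1 : A0.G K) :=
  ⟨1, 0, by rw [torMat_one456]; rfl⟩

theorem inTorus_mul456 {m m' : A0.G K} (h : InTorus t n m) (h' : InTorus t n m') :
    InTorus t n (m * m') := by
  obtain ⟨a, b, h⟩ := h
  obtain ⟨a', b', h'⟩ := h'
  refine ⟨a * a' - nA * (b * b'), a * b' + b * a' + tA * (b * b'), ?_⟩
  rw [Units.val_mul, h, h', torMat_mul456]

/-- The determinant of a torus element, as an adele. -/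
theorem det_torus456 {m : A0.G K} {a b : A0.Adl K}
    (h : (m : Matrix (Fin 2) (Fin 2) (A0.Adl K)) = torMat tA nA a b) :
    ((Matrix.GeneralLinearGroup.det m : (A0.Adl K)ˣ) : A0.Adl K)
      = a ^ 2 + tA * a * b + nA * b ^ 2 := by
  rw [Matrix.GeneralLinearGroup.val_det_apply, h, torMat_det456]

theorem inv_torus456 {m : A0.G K} {a b : A0.Adl K}
    (h : (m : Matrix (Fin 2) (Fin 2) (A0.Adl K)) = torMat tA nA a b) :
    ((m⁻¹ : A0.G K) : Matrix (Fin 2) (Fin 2) (A0.Adl K))
      = torMat tA nA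
          (((Matrix.GeneralLinearGroup.det m)⁻¹ : (A0.Adl K)ˣ) * (a + tA * b))
          (-((((Matrix.GeneralLinearGroup.det m)⁻¹ : (A0.Adl K)ˣ) : A0.Adl K) * b)) := by
  have hd := det_torus456 t n h
  set d : (A0.Adl K)ˣ := Matrix.GeneralLinearGroup.det m with hdef
  have hdd : ((d⁻¹ : (A0.Adl K)ˣ) : A0.Adl K) * (a ^ 2 + tA * a * b + nA * b ^ 2) = 1 := by
    rw [← hd]; exact Units.inv_mul d
  have hmul : (m : Matrix (Fin 2) (Fin 2) (A0.Adl K)) *
      torMat tA nA (((d⁻¹ : (A0.Adl K)ˣ) : A0.Adl K) * (a + tA * b))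
        (-(((d⁻¹ : (A0.Adl K)ˣ) : A0.Adl K) * b)) = 1 := by
    rw [h, torMat_mul456, ← torMat_one456 tA nA]
    congr 1
    · linear_combination hdd
    · ring
  have h1 : ((m⁻¹ : A0.G K) : Matrix (Fin 2) (Fin 2) (A0.Adl K))
      = ((m⁻¹ : A0.G K) : Matrix (Fin 2) (Fin 2) (A0.Adl K)) * ((m : Matrix (Fin 2) (Fin 2) (A0.Adl K)) *
      torMat tA nA (((d⁻¹ : (A0.Adl K)ˣ) : A0.Adl K) * (a + tA * b))
        (-(((d⁻¹ : (A0.Adl K)ˣ) : A0.Adl K) * b))) := by
    rw [hmul, mul_one]
  rw [h1, ← mul_assoc, ← Units.val_mul, inv_mul_cancel, Units.val_one, one_mul]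

theorem inTorus_inv456 {m : A0.G K} (h : InTorus t n m) : InTorus t n m⁻¹ := by
  obtain ⟨a, b, h⟩ := h
  exact ⟨_, _, inv_torus456 t n h⟩

end TorusG

/-! ## Multiplicativity of `Θ` -/

section ThetaMul

variable (t n : K) (ω : L) (ι : FiniteAdeleRing (𝓞 K) K →+* FiniteAdeleRing (𝓞 L) L)

local notation "tA" => algebraMap K (A0.Adl K) t
local notation "nA" => algebraMap K (A0.Adl K) n

theorem algebraMap_adl_snd456 (x : K) :
    (algebraMap K (A0.Adl K) x).2 = algebraMap K (FiniteAdeleRing (𝓞 K) K) x := rfl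

theorem algebraMap_adl_fst456 (x : K) :
    (algebraMap K (A0.Adl K) x).1 = algebraMap K (InfiniteAdeleRing K) x := rfl

theorem adl_snd_mul456 (a b : A0.Adl K) : (a * b).2 = a.2 * b.2 := rfl
theorem adl_snd_add456 (a b : A0.Adl K) : (a + b).2 = a.2 + b.2 := rfl
theorem adl_snd_sub456 (a b : A0.Adl K) : (a - b).2 = a.2 - b.2 := rfl
theorem adl_snd_neg456 (a : A0.Adl K) : (-a).2 = -a.2 := rfl
theorem adl_snd_one456 : (1 : A0.Adl K).2 = 1 := rfl
theorem adl_snd_zero456 : (0 : A0.Adl K).2 = 0 := rfl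
theorem adl_fst_mul456 (a b : A0.Adl K) : (a * b).1 = a.1 * b.1 := rfl
theorem adl_fst_add456 (a b : A0.Adl K) : (a + b).1 = a.1 + b.1 := rfl
theorem adl_fst_one456 : (1 : A0.Adl K).1 = 1 := rfl
theorem adl_fst_zero456 : (0 : A0.Adl K).1 = 0 := rfl

theorem adl_ext456 {a b : A0.Adl K} (h1 : a.1 = b.1) (h2 : a.2 = b.2) : a = b :=
  Prod.ext h1 h2

variable {t n ω ι}

theorem theta456_mul (hrel : ω ^ 2 - algebraMap K L t * ω + algebraMap K L n = 0)
    (hι : IsBC456 ι) (a b a' b' : A0.Adl K) :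
    theta456 ι ω a b * theta456 ι ω a' b'
      = theta456 ι ω (a * a' - nA * (b * b')) (a * b' + b * a' + tA * (b * b')) := by
  have hω : (algebraMap L (FiniteAdeleRing (𝓞 L) L) ω) ^ 2
      = algebraMap L (FiniteAdeleRing (𝓞 L) L) (algebraMap K L t)
          * algebraMap L (FiniteAdeleRing (𝓞 L) L) ω
        - algebraMap L (FiniteAdeleRing (𝓞 L) L) (algebraMap K L n) := by
    rw [← map_pow, ← map_mul, ← map_sub]
    congr 1
    linear_combination hrel
  apply Prod.ext
  · show (1 : InfiniteAdeleRing L) * 1 = 1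
    rw [mul_one]
  · show (ι a.2 + ι b.2 * algebraMap L (FiniteAdeleRing (𝓞 L) L) ω)
        * (ι a'.2 + ι b'.2 * algebraMap L (FiniteAdeleRing (𝓞 L) L) ω)
      = ι (a * a' - nA * (b * b')).2
        + ι (a * b' + b * a' + tA * (b * b')).2 * algebraMap L (FiniteAdeleRing (𝓞 L) L) ω
    simp only [adl_snd_sub456, adl_snd_add456, adl_snd_mul456, algebraMap_adl_snd456,
      map_sub, map_add, map_mul, isBC456_algebraMap hι]
    linear_combination (ι b.2 * ι b'.2) * hω

theorem theta456_one : theta456 ι ω (1 : A0.Adl K) 0 = 1 := by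
  apply Prod.ext
  · rfl
  · show ι (1 : A0.Adl K).2 + ι (0 : A0.Adl K).2 * algebraMap L (FiniteAdeleRing (𝓞 L) L) ω = 1
    rw [adl_snd_one456, adl_snd_zero456, map_one, map_zero, zero_mul, add_zero]

variable (ι ω)

/-- `Θ` on `GL₂(𝔸_K)`: read the coordinates in the first column. -/
def thetaG456 (m : A0.G K) : A0.Adl L :=
  theta456 ι ω ((m : Matrix (Fin 2) (Fin 2) (A0.Adl K)) 0 0)
    ((m : Matrix (Fin 2) (Fin 2) (A0.Adl K)) 1 0)

variable {ι ω}

theorem thetaG456_of_eq {m : A0.G K} {a b : A0.Adl K}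
    (h : (m : Matrix (Fin 2) (Fin 2) (A0.Adl K)) = torMat tA nA a b) :
    thetaG456 ω ι m = theta456 ι ω a b := by
  unfold thetaG456
  rw [h, torMat_apply00_456, torMat_apply10_456]

theorem thetaG456_one : thetaG456 ω ι (1 : A0.G K) = 1 := by
  unfold thetaG456
  rw [Units.val_one, Matrix.one_apply_eq, Matrix.one_apply_ne (by decide : (1 : Fin 2) ≠ 0)]
  exact theta456_one

theorem thetaG456_mul (hrel : ω ^ 2 - algebraMap K L t * ω + algebraMap K L n = 0)
    (hι : IsBC456 ι) {m m' : A0.G K} (h : InTorus t n m) (h' : InTorus t n m') :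
    thetaG456 ω ι (m * m') = thetaG456 ω ι m * thetaG456 ω ι m' := by
  obtain ⟨a, b, h⟩ := h
  obtain ⟨a', b', h'⟩ := h'
  have hmm : ((m * m' : A0.G K) : Matrix (Fin 2) (Fin 2) (A0.Adl K))
      = torMat tA nA (a * a' - nA * (b * b')) (a * b' + b * a' + tA * (b * b')) := by
    rw [Units.val_mul, h, h', torMat_mul456]
  rw [thetaG456_of_eq hmm, thetaG456_of_eq h, thetaG456_of_eq h', theta456_mul hrel hι]

theorem isUnit_thetaG456 (hrel : ω ^ 2 - algebraMap K L t * ω + algebraMap K L n = 0)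
    (hι : IsBC456 ι) {m : A0.G K} (h : InTorus t n m) : IsUnit (thetaG456 ω ι m) := by
  have h1 := thetaG456_mul hrel hι h (inTorus_inv456 t n h)
  rw [mul_inv_cancel, thetaG456_one] at h1
  exact IsUnit.of_mul_eq_one _ h1.symm

end ThetaMul

end Fermat.Agent.LT.A2.H456

end
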