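import Fermat.Agent.LT.A2.H456.Theta1

/-!
# Row LT, tower A2, leaf A2.02 `TorusCharC` -- top assembly, part 2 (helper456), OFF-MAIN

The torus character `χT(m) = χ(Θ(m))`: multiplicativity, continuity, finite order.
-/

set_option autoImplicit false

open IsDedekindDomain NumberField AutomorphicForm
open scoped MatrixGroups

noncomputable section

namespace Fermat.Agent.LT.A2.H456

open Fermat.Agent.LT.H130 Fermat.Agent.LT.H556 Fermat.Agent.LT.A2 Fermat.Agent.LT.A2.H83

variable {K L : Type} [Field K] [NumberField K] [Field L] [NumberField L] [Algebra K L]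

/-- The transport of `χ` to `GL₂(𝔸_K)` (only its values on the torus matter). -/
def chiT456 (ω : L) (ι : FiniteAdeleRing (𝓞 K) K →+* FiniteAdeleRing (𝓞 L) L)
    (χ : (A0.Adl L)ˣ →* ℂˣ) (m : A0.G K) : ℂ :=
  open Classical in
  if h : IsUnit (thetaG456 ω ι m) then ((χ h.unit : ℂˣ) : ℂ) else 0

variable {t n : K} {ω : L} {ι : FiniteAdeleRing (𝓞 K) K →+* FiniteAdeleRing (𝓞 L) L}
  {χ : (A0.Adl L)ˣ →* ℂˣ}

theorem chiT456_of_unit {m : A0.G K} (u : (A0.Adl L)ˣ)
    (hu : (u : A0.Adl L) = thetaG456 ω ι m) : chiT456 ω ι χ m = ((χ u : ℂˣ) : ℂ) := by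
  have h : IsUnit (thetaG456 ω ι m) := hu ▸ u.isUnit
  unfold chiT456
  rw [dif_pos h]
  congr 2
  apply Units.ext
  rw [IsUnit.unit_spec, hu]

/-- The unit `Θ(m)` for `m` in the torus. -/
def unitT456 (hrel : ω ^ 2 - algebraMap K L t * ω + algebraMap K L n = 0)
    (hι : IsBC456 ι) (m : A0.G K) (h : InTorus t n m) : (A0.Adl L)ˣ :=
  (isUnit_thetaG456 hrel hι h).unit

theorem unitT456_val (hrel : ω ^ 2 - algebraMap K L t * ω + algebraMap K L n = 0)
    (hι : IsBC456 ι) (m : A0.G K) (h : InTorus t n m) :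
    ((unitT456 hrel hι m h : (A0.Adl L)ˣ) : A0.Adl L) = thetaG456 ω ι m :=
  IsUnit.unit_spec _

theorem chiT456_eq (hrel : ω ^ 2 - algebraMap K L t * ω + algebraMap K L n = 0)
    (hι : IsBC456 ι) (m : A0.G K) (h : InTorus t n m) :
    chiT456 ω ι χ m = ((χ (unitT456 hrel hι m h) : ℂˣ) : ℂ) :=
  chiT456_of_unit _ (unitT456_val hrel hι m h)

theorem unitT456_mul (hrel : ω ^ 2 - algebraMap K L t * ω + algebraMap K L n = 0)
    (hι : IsBC456 ι) {m m' : A0.G K} (h : InTorus t n m) (h' : InTorus t n m') :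
    unitT456 hrel hι (m * m') (inTorus_mul456 t n h h')
      = unitT456 hrel hι m h * unitT456 hrel hι m' h' := by
  apply Units.ext
  rw [Units.val_mul, unitT456_val, unitT456_val, unitT456_val, thetaG456_mul hrel hι h h']

theorem unitT456_inv_val (hrel : ω ^ 2 - algebraMap K L t * ω + algebraMap K L n = 0)
    (hι : IsBC456 ι) (m : A0.G K) (h : InTorus t n m) :
    (((unitT456 hrel hι m h)⁻¹ : (A0.Adl L)ˣ) : A0.Adl L) = thetaG456 ω ι m⁻¹ := by
  have h1 := thetaG456_mul hrel hι h (inTorus_inv456 t n h)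
  rw [mul_inv_cancel, thetaG456_one, ← unitT456_val hrel hι m h] at h1
  exact (Units.inv_eq_of_mul_eq_one_right h1.symm)

theorem chiT456_mul (hrel : ω ^ 2 - algebraMap K L t * ω + algebraMap K L n = 0)
    (hι : IsBC456 ι) {m m' : A0.G K} (h : InTorus t n m) (h' : InTorus t n m') :
    chiT456 ω ι χ (m * m') = chiT456 ω ι χ m * chiT456 ω ι χ m' := by
  rw [chiT456_eq hrel hι _ (inTorus_mul456 t n h h'), chiT456_eq hrel hι _ h,
    chiT456_eq hrel hι _ h', unitT456_mul hrel hι h h', map_mul, Units.val_mul]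

theorem chiT456_one : chiT456 ω ι χ (1 : A0.G K) = 1 := by
  rw [chiT456_of_unit (1 : (A0.Adl L)ˣ) (by rw [Units.val_one, thetaG456_one]), map_one,
    Units.val_one]

theorem chiT456_pow (hrel : ω ^ 2 - algebraMap K L t * ω + algebraMap K L n = 0)
    (hι : IsBC456 ι) {k : ℕ} (hk : ∀ z : (A0.Adl L)ˣ, χ z ^ k = 1)
    (m : A0.G K) (h : InTorus t n m) : chiT456 ω ι χ m ^ k = 1 := by
  rw [chiT456_eq hrel hι _ h, ← Units.val_pow_eq_pow_val, hk, Units.val_one]

/-! ## Continuity -/

theorem continuous_thetaG456 (hc : Continuous ι) : Continuous (thetaG456 ω ι) := by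
  unfold thetaG456 theta456
  have hv : Continuous fun m : A0.G K => (m : Matrix (Fin 2) (Fin 2) (A0.Adl K)) :=
    Units.continuous_val
  have h00 : Continuous fun m : A0.G K => (m : Matrix (Fin 2) (Fin 2) (A0.Adl K)) 0 0 :=
    hv.matrix_elem 0 0
  have h10 : Continuous fun m : A0.G K => (m : Matrix (Fin 2) (Fin 2) (A0.Adl K)) 1 0 :=
    hv.matrix_elem 1 0
  have hsnd : Continuous fun a : A0.Adl K => a.2 := continuous_snd
  refine Continuous.prodMk continuous_const ?_
  exact (hc.comp (hsnd.comp h00)).add ((hc.comp (hsnd.comp h10)).mul continuous_const)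

theorem continuousOn_chiT456 (hrel : ω ^ 2 - algebraMap K L t * ω + algebraMap K L n = 0)
    (hι : IsBC456 ι) (hc : Continuous ι) (hχ : Continuous χ) :
    ContinuousOn (chiT456 ω ι χ) {m | InTorus t n m} := by
  rw [continuousOn_iff_continuous_domRestrict]
  have hU : Continuous fun s : {m : A0.G K | InTorus t n m} => unitT456 hrel hι s.1 s.2 := by
    rw [Units.continuous_iff]
    constructor
    · have : (Units.val ∘ fun s : {m : A0.G K | InTorus t n m} => unitT456 hrel hι s.1 s.2)
          = fun s => thetaG456 ω ι s.1 := by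
        funext s
        exact unitT456_val hrel hι s.1 s.2
      rw [this]
      exact (continuous_thetaG456 hc).comp continuous_subtype_val
    · have : (fun s : {m : A0.G K | InTorus t n m} =>
            (((unitT456 hrel hι s.1 s.2)⁻¹ : (A0.Adl L)ˣ) : A0.Adl L))
          = fun s => thetaG456 ω ι (s.1)⁻¹ := by
        funext s
        exact unitT456_inv_val hrel hι s.1 s.2
      rw [this]
      exact (continuous_thetaG456 hc).comp (continuous_inv.comp continuous_subtype_val)
  have : ({m : A0.G K | InTorus t n m}.domRestrict (chiT456 ω ι χ))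
      = fun s => ((χ (unitT456 hrel hι s.1 s.2) : ℂˣ) : ℂ) := by
    funext s
    exact chiT456_eq hrel hι s.1 s.2
  rw [this]
  exact Units.continuous_val.comp (hχ.comp hU)

end Fermat.Agent.LT.A2.H456

end
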