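import Fermat.Agent.LT.A2.H456.Dict3

/-!
# Row LT, tower A2, leaf A2.02 `TorusCharC` -- THE TOP (helper456), OFF-MAIN

`torusCharC_of83 : GenC83 → BaseChangeC83 → InfTrivC83 → UnramFiniteC83 → IntUpC83 →
  NormOneEltC83 → SplitEltC83 → InertC83 → A2.TorusCharC`

(cut of helper83, `LT/A2/H83/TorusSpec.lean`; `LocalMapC83` is only needed for `BaseChangeC83`).
-/

set_option autoImplicit false

open IsDedekindDomain NumberField AutomorphicForm
open scoped MatrixGroups

noncomputable section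

namespace Fermat.Agent.LT.A2.H456

open Fermat.Agent.LT.H130 Fermat.Agent.LT.H556 Fermat.Agent.LT.A2 Fermat.Agent.LT.A2.H83

theorem isComplex_of_base456 {K L : Type} [Field K] [NumberField K] [Field L] [NumberField L]
    [Algebra K L] (hcplx : ∀ u : InfinitePlace K, u.IsComplex) (u : InfinitePlace L) :
    u.IsComplex := by
  rw [← InfinitePlace.not_isReal_iff_isComplex]
  intro hr
  have h1 : (u.comap (algebraMap K L)).IsReal := hr.comap _
  exact (InfinitePlace.not_isReal_iff_isComplex.mpr (hcplx _)) h1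

theorem disc_ne_zero456 {K : Type} [Field K] [NumberField K] {t n : K}
    (hirr : ∀ x : K, x ^ 2 - t * x + n ≠ 0) : t ^ 2 - 4 * n ≠ 0 := by
  intro h0
  apply hirr (t / 2)
  field_simp
  linear_combination -h0

theorem disc_isIntegral456 {K : Type} [Field K] [NumberField K] {t n : K}
    (ht : IsIntegral ℤ t) (hn : IsIntegral ℤ n) : IsIntegral ℤ (t ^ 2 - 4 * n) := by
  have h4 : IsIntegral ℤ (4 : K) := by
    have : (4 : K) = algebraMap ℤ K 4 := by simp
    rw [this]
    exact isIntegral_algebraMap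
  exact (ht.pow 2).sub (h4.mul hn)

theorem torusCharC_of83 (h1 : GenC83) (h3 : BaseChangeC83) (h4 : InfTrivC83)
    (h5 : UnramFiniteC83) (h6 : IntUpC83) (h7 : NormOneEltC83) (h8 : SplitEltC83)
    (h9 : InertC83) : TorusCharC := by
  intro K L _ _ _ _ _ hfr hcplx χ hχ hfin hng
  obtain ⟨t, n, ω, hg⟩ := h1 K L hfr
  obtain ⟨ι, hc, hι'⟩ := h3 K L
  have hι : IsBC456 ι := hι'
  obtain ⟨S, hS⟩ := h5 L χ hχ.cont hfin
  have hcL : ∀ u : InfinitePlace L, u.IsComplex := isComplex_of_base456 hcplx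
  -- the discriminant
  have hDint : IsIntegral ℤ (t ^ 2 - 4 * n) := disc_isIntegral456 hg.int_t hg.int_n
  set D' : 𝓞 K := ⟨t ^ 2 - 4 * n, hDint⟩ with hD'
  have hD'0 : D' ≠ 0 := by
    intro h0
    apply disc_ne_zero456 hg.irred
    have := congrArg (algebraMap (𝓞 K) K) h0
    rw [map_zero] at this
    exact this
  set 𝔡 : Ideal (𝓞 K) := Ideal.span {D'} * ∏ w ∈ S, (below456 K w).asIdeal with h𝔡
  have h𝔡0 : 𝔡 ≠ ⊥ := by
    rw [h𝔡, ← Ideal.zero_eq_bot]
    apply mul_ne_zero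
    · rw [Ideal.zero_eq_bot, Ne, Ideal.span_singleton_eq_bot]
      exact hD'0
    · rw [Finset.prod_ne_zero_iff]
      intro w _
      rw [Ideal.zero_eq_bot]
      exact (below456 K w).ne_bot
  obtain ⟨k, hk0, hk⟩ := hfin
  refine ⟨t, n, chiT456 ω ι χ, 𝔡, h𝔡0,
    ⟨hg.irred, fun m m' h h' => chiT456_mul hg.rel hι h h', chiT456_one,
      continuousOn_chiT456 hg.rel hι hc hχ.cont,
      fun m hm => chiT456_rat hg.rel hg.irred hι (h4 L hcL χ ⟨k, hk0, hk⟩) hχ m hm,
      ⟨k, hk0, fun m hm => chiT456_pow hg.rel hι hk m hm⟩,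
      chiT456_nontriv hfr hg hι h7 hng⟩, ?_⟩
  intro π hT hlev v hv
  have hnot : ¬ 𝔡 ≤ v.asIdeal := fun hle => hv (Ideal.dvd_iff_le.mpr (hlev.trans hle))
  refine inducedAt_of456 hfr hg hι h7 h8 h9 h6 v ?_ ?_ _ _ (hT v hv)
  · have hmem : D' ∉ v.asIdeal := by
      intro hmem
      apply hnot
      rw [h𝔡]
      exact Ideal.mul_le_left.trans ((Ideal.span_singleton_le_iff_mem _).mpr hmem)
    rw [val83_eq456]
    have : (t ^ 2 - 4 * n : K) = algebraMap (𝓞 K) K D' := rfl
    rw [this, HeightOneSpectrum.valuation_of_algebraMap,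
      HeightOneSpectrum.intValuation_eq_one_iff]
    exact hmem
  · intro w ho
    apply hS
    intro hwS
    apply hnot
    rw [h𝔡]
    have h1 : (∏ w ∈ S, (below456 K w).asIdeal) ≤ (below456 K w).asIdeal :=
      Ideal.prod_le_inf.trans (Finset.inf_le hwS)
    have h2 : (below456 K w).asIdeal = v.asIdeal := ho
    rw [← h2]
    exact Ideal.mul_le_right.trans h1

end Fermat.Agent.LT.A2.H456

end
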